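import Fermat.Agent.RiemannMangoldt.Main
import Fermat.Agent.APoints.Reflect
import Fermat.Agent.LiCriterion.Coefficients

/-!
# `∫ log |ξ|` on a horizontal segment

Up to `O (log T)` the integral over `-1 ≤ x ≤ 2` at height `T` is `-3 π T / 4`: Jensen's expansion
bounds the part of `ζ`, as `∫ |log |x - b|| dx = O (1)`, and `|Γℝ (1 + iT)|` is explicit.
-/

set_option autoImplicit false

noncomputable section

namespace FA.ArgumentMean

open Complex Filter Topology MeasureTheory Set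
open FA.RiemannMangoldt (xiFn xiFn_one_sub xiFn_eq xiFn_eq_zero_iff exists_zeta_expansion
  logGammaReal)
open FA.Levinson (gammaLog gammaℝ_ne_zero differentiableAt_gammaℝ)
open FA.LevinsonThird (hasDerivAt_log_norm)
open FA.ZeroFree (ell four_le_ell ell_pos)
open scoped Real ComplexConjugate

theorem abs_mul_log_le {x : ℝ} (hx : |x| ≤ 6) : |x * Real.log x| ≤ 30 := by
  rw [← Real.log_abs x, abs_mul]
  rcases le_or_gt |x| 1 with h | h
  · rcases (abs_nonneg x).eq_or_lt with h0 | h0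
    · rw [← h0]; norm_num
    rw [abs_of_nonpos (Real.log_nonpos (abs_nonneg x) h)]
    have h1 := Real.one_sub_inv_le_log_of_pos h0
    have h2 := mul_le_mul_of_nonneg_left h1 (abs_nonneg x)
    rw [mul_sub, mul_inv_cancel₀ h0.ne', mul_one] at h2
    nlinarith
  · rw [abs_of_nonneg (Real.log_nonneg h.le)]
    have h1 := Real.log_le_sub_one_of_pos (show 0 < |x| by linarith)
    nlinarith [Real.log_nonneg h.le]

/-- **One root along the segment.** -/
theorem abs_integral_log_root_le {t : ℝ} {ρ : ℂ} (h1 : |ρ.re| ≤ 3) (h2 : |t - ρ.im| ≤ 2)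
    (hne : ∀ u ∈ Icc (1 / 2 : ℝ) 2, (u : ℂ) + t * I ≠ ρ) :
    IntervalIntegrable (fun u : ℝ => Real.log ‖(u : ℂ) + t * I - ρ‖) volume (1 / 2) 2 ∧
      |∫ u in (1 / 2 : ℝ)..2, Real.log ‖(u : ℂ) + t * I - ρ‖| ≤ 62 := by
  have hi : IntervalIntegrable (fun u : ℝ => Real.log ‖(u : ℂ) + t * I - ρ‖) volume (1 / 2) 2 := by
    refine ContinuousOn.intervalIntegrable (ContinuousOn.log (by fun_prop) fun u hu => ?_)
    rw [uIcc_of_le (by norm_num)] at hu
    exact norm_ne_zero_iff.2 (sub_ne_zero.2 (hne u hu))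
  refine ⟨hi, ?_⟩
  obtain ⟨a1, a2⟩ := abs_le.1 h1
  obtain ⟨b1, b2⟩ := abs_le.1 h2
  have hl : IntervalIntegrable (fun u : ℝ => Real.log (u - ρ.re)) volume (1 / 2) 2 := by
    have := (intervalIntegral.intervalIntegrable_log' (a := 1 / 2 - ρ.re) (b := 2 - ρ.re)
      ).comp_sub_right ρ.re
    simpa using this
  have hre : ∀ u : ℝ, ((u : ℂ) + t * I - ρ).re = u - ρ.re := fun u => by simp
  have hlow : (∫ u in (1 / 2 : ℝ)..2, Real.log (u - ρ.re)) ≤
      ∫ u in (1 / 2 : ℝ)..2, Real.log ‖(u : ℂ) + t * I - ρ‖ := by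
    refine intervalIntegral.integral_mono_ae_restrict (by norm_num) hl hi ?_
    rw [Filter.EventuallyLE, ae_restrict_iff' measurableSet_Icc]
    refine (Countable.ae_notMem (Set.countable_singleton ρ.re) volume).mono fun u hu _ => ?_
    rw [← Real.log_abs]
    refine Real.log_le_log (abs_pos.2 (sub_ne_zero.2 hu)) ?_
    rw [← hre]
    exact abs_re_le_norm _
  have hup : (∫ u in (1 / 2 : ℝ)..2, Real.log ‖(u : ℂ) + t * I - ρ‖) ≤ (2 - 1 / 2) * 6 := by
    rw [show (2 - 1 / 2 : ℝ) * 6 = ∫ _ in (1 / 2 : ℝ)..2, (6 : ℝ) by simp]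
    refine intervalIntegral.integral_mono_on (by norm_num) hi intervalIntegrable_const
      fun u hu => ?_
    have hn : ‖(u : ℂ) + t * I - ρ‖ ≤ 7 := by
      refine (norm_le_abs_re_add_abs_im _).trans ?_
      simp only [sub_re, add_re, mul_re, ofReal_re, ofReal_im, I_re, I_im, mul_zero, sub_zero,
        sub_im, add_im, mul_im, mul_one, add_zero, zero_add]
      have hu' : |u - ρ.re| ≤ 5 := abs_le.2 ⟨by linarith [hu.1], by linarith [hu.2]⟩
      linarith
    rcases (norm_nonneg ((u : ℂ) + t * I - ρ)).eq_or_lt with h0 | h0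
    · rw [← h0, Real.log_zero]; norm_num
    · linarith [Real.log_le_sub_one_of_pos h0]
  rw [intervalIntegral.integral_comp_sub_right (fun x => Real.log x), integral_log] at hlow
  have c1 := abs_le.1 (abs_mul_log_le (x := 2 - ρ.re) (abs_le.2 ⟨by linarith, by linarith⟩))
  have c2 := abs_le.1 (abs_mul_log_le (x := 1 / 2 - ρ.re) (abs_le.2 ⟨by linarith, by linarith⟩))
  rw [abs_le]
  constructor <;> linarith

theorem roots_log (Z : Multiset ℂ) {t : ℝ}
    (hZ : ∀ ρ ∈ Z, |ρ.re| ≤ 3 ∧ |t - ρ.im| ≤ 2 ∧ ρ.re ≤ 1)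
    (hne : ∀ ρ ∈ Z, ∀ u ∈ Icc (1 / 2 : ℝ) 2, (u : ℂ) + t * I ≠ ρ) :
    IntervalIntegrable (fun u : ℝ =>
        (Z.map fun ρ => Real.log ‖(u : ℂ) + t * I - ρ‖).sum) volume (1 / 2) 2 ∧
      |∫ u in (1 / 2 : ℝ)..2, (Z.map fun ρ => Real.log ‖(u : ℂ) + t * I - ρ‖).sum| ≤
        62 * Multiset.card Z ∧
      |(Z.map fun ρ => Real.log ‖((2 : ℝ) : ℂ) + t * I - ρ‖).sum| ≤ 6 * Multiset.card Z ∧
      ∀ u ∈ Icc (1 / 2 : ℝ) 2,
        HasDerivAt (fun v : ℝ => (Z.map fun ρ => Real.log ‖(v : ℂ) + t * I - ρ‖).sum)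
          ((Z.map fun ρ => ((u : ℂ) + t * I - ρ)⁻¹).sum).re u := by
  induction Z using Multiset.induction_on with
  | empty => simp [hasDerivAt_const]
  | cons ρ Y ih =>
    obtain ⟨hi, hb, hb2, hd⟩ := ih (fun x hx => hZ x (Multiset.mem_cons_of_mem hx))
      fun x hx => hne x (Multiset.mem_cons_of_mem hx)
    obtain ⟨e1, e2, e3⟩ := hZ ρ (Multiset.mem_cons_self ρ Y)
    have hneρ := hne ρ (Multiset.mem_cons_self ρ Y)
    obtain ⟨hi1, hb1⟩ := abs_integral_log_root_le e1 e2 hneρ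
    simp only [Multiset.map_cons, Multiset.sum_cons, Multiset.card_cons]
    refine ⟨hi1.add hi, ?_, ?_, fun u hu => ?_⟩
    · rw [intervalIntegral.integral_add hi1 hi]
      refine (abs_add_le _ _).trans ?_
      push_cast
      linarith
    · refine (abs_add_le _ _).trans ?_
      have h0 : 1 ≤ ‖((2 : ℝ) : ℂ) + t * I - ρ‖ := by
        refine le_trans ?_ (re_le_norm _)
        simp; linarith
      have h7 : ‖((2 : ℝ) : ℂ) + t * I - ρ‖ ≤ 7 := by
        refine (norm_le_abs_re_add_abs_im _).trans ?_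
        simp only [sub_re, add_re, mul_re, ofReal_re, ofReal_im, I_re, I_im, mul_zero, sub_zero,
          sub_im, add_im, mul_im, mul_one, add_zero, zero_add]
        have hu' : |2 - ρ.re| ≤ 5 := abs_le.2
          ⟨by linarith, by linarith [(abs_le.1 e1).1]⟩
        linarith
      rw [abs_of_nonneg (Real.log_nonneg h0)]
      simp only [Nat.cast_add, Nat.cast_one]
      linarith [Real.log_le_sub_one_of_pos (show 0 < ‖((2 : ℝ) : ℂ) + t * I - ρ‖ by linarith)]
    · rw [add_re]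
      refine HasDerivAt.add ?_ (hd u hu)
      have hp : HasDerivAt (fun v : ℝ => (v : ℂ) + t * I - ρ) 1 u := by
        simpa using (((hasDerivAt_id' (u : ℂ)).add_const ((t : ℂ) * I)).sub_const ρ).comp_ofReal
      refine (hasDerivAt_log_norm hp (sub_ne_zero.2 (hneρ u hu))).congr_deriv ?_
      rw [one_div]

theorem log_norm_zeta_two (t : ℝ) :
    |Real.log ‖riemannZeta (((2 : ℝ) : ℂ) + t * I)‖| ≤ 4 := by
  obtain ⟨s, hs⟩ : ∃ s : ℂ, s = ((2 : ℝ) : ℂ) + t * I := ⟨_, rfl⟩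
  have hre : s.re = 2 := by simp [hs]
  have h := FA.APoints.norm_zeta_right (s := s) (by rw [hre])
  rw [hre, show (2 : ℝ) - 2 = 0 by ring, Real.rpow_zero] at h
  have h2 : ‖(2 : ℂ) ^ (-s)‖ = 1 / 4 := by
    rw [FA.APoints.norm_two_cpow_neg, hre, Real.rpow_neg two_pos.le, Real.rpow_two]
    norm_num
  rw [← hs]
  have hlo : 1 / 4 ≤ ‖riemannZeta s‖ := by
    have h3 := norm_sub_le (riemannZeta s - ((2 : ℂ) ^ (-s))) (riemannZeta s - 1 - (2 : ℂ) ^ (-s))
    rw [show riemannZeta s - (2 : ℂ) ^ (-s) - (riemannZeta s - 1 - (2 : ℂ) ^ (-s)) = 1 by ring,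
      norm_one] at h3
    have h4 := norm_sub_le (riemannZeta s) ((2 : ℂ) ^ (-s))
    linarith
  have hhi : ‖riemannZeta s‖ ≤ 2 := by
    have h3 := norm_le_norm_add_norm_sub' (riemannZeta s) (1 + (2 : ℂ) ^ (-s))
    rw [← sub_sub] at h3
    have h4 := norm_add_le (1 : ℂ) ((2 : ℂ) ^ (-s))
    rw [norm_one] at h4
    linarith
  have h0 : 0 < ‖riemannZeta s‖ := by linarith
  rw [abs_le]
  refine ⟨?_, by linarith [Real.log_le_sub_one_of_pos h0]⟩
  have h5 := Real.one_sub_inv_le_log_of_pos h0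
  have h6 : ‖riemannZeta s‖⁻¹ ≤ 4 := by
    rw [show (4 : ℝ) = (1 / 4)⁻¹ by norm_num]
    exact inv_anti₀ (by norm_num) hlo
  linarith

/-- **`∫ log |ζ|` on the right half of the segment.** -/
theorem exists_integral_log_zeta : ∃ C, 0 ≤ C ∧ ∀ t : ℝ, 3 ≤ t →
    (∀ ρ, xiFn ρ = 0 → ρ.im ≠ t) →
      |∫ u in (1 / 2 : ℝ)..2, Real.log ‖riemannZeta ((u : ℂ) + t * I)‖| ≤ C * ell t := by
  obtain ⟨K, hK, hexp⟩ := exists_zeta_expansion
  refine ⟨80 * K + 6, by positivity, fun t ht hord => ?_⟩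
  have hl := four_le_ell t
  obtain ⟨Z, hZ, hcard, hcount, hlog⟩ := hexp t (by rw [abs_of_nonneg (by linarith)]; exact ht)
  have hne1 : ∀ u : ℝ, (u : ℂ) + t * I ≠ 1 := fun u h => by
    have := congrArg Complex.im h
    simp at this
    linarith
  have hζ : ∀ u ∈ Icc (1 / 2 : ℝ) 2, riemannZeta ((u : ℂ) + t * I) ≠ 0 := fun u hu hz =>
    hord _ ((xiFn_eq_zero_iff (by simp; linarith [hu.1]) (hne1 u)).2 hz) (by simp)
  have hroot : ∀ ρ ∈ Z, riemannZeta ρ = 0 := fun ρ hρ => by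
    have hc : 0 < Z.count ρ := Multiset.count_pos.2 hρ
    rw [← hcount ρ (hZ ρ hρ)] at hc
    exact apply_eq_zero_of_analyticOrderNatAt_ne_zero hc.ne'
  have hin : ∀ ρ ∈ Z, |ρ.re| ≤ 3 ∧ |t - ρ.im| ≤ 2 ∧ ρ.re ≤ 1 := fun ρ hρ => by
    have h1 := (abs_re_le_norm _).trans (hZ ρ hρ)
    have h2 := (abs_im_le_norm _).trans (hZ ρ hρ)
    simp only [sub_re, sub_im, add_re, add_im, mul_re, mul_im, ofReal_re, ofReal_im, I_re, I_im,
      mul_zero, sub_zero, mul_one, add_zero, zero_add] at h1 h2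
    rw [abs_le] at h1 h2
    refine ⟨abs_le.2 ⟨by linarith, by linarith⟩, abs_le.2 ⟨by linarith, by linarith⟩, ?_⟩
    exact le_of_not_gt fun h => riemannZeta_ne_zero_of_one_le_re h.le (hroot ρ hρ)
  have hneZ : ∀ ρ ∈ Z, ∀ u ∈ Icc (1 / 2 : ℝ) 2, (u : ℂ) + t * I ≠ ρ := fun ρ hρ u hu h =>
    hζ u hu (h ▸ hroot ρ hρ)
  obtain ⟨hRi, hRb, hR2, hRd⟩ := roots_log Z hin hneZ
  obtain ⟨g, hg⟩ : ∃ g : ℝ → ℝ, g = fun u : ℝ => Real.log ‖riemannZeta ((u : ℂ) + t * I)‖ -
      (Z.map fun ρ => Real.log ‖(u : ℂ) + t * I - ρ‖).sum := ⟨_, rfl⟩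
  have hgd : ∀ u ∈ Icc (1 / 2 : ℝ) 2, HasDerivWithinAt g
      (deriv riemannZeta ((u : ℂ) + t * I) / riemannZeta ((u : ℂ) + t * I) -
        (Z.map fun ρ => ((u : ℂ) + t * I - ρ)⁻¹).sum).re (Icc (1 / 2) 2) u := fun u hu => by
    have hp : HasDerivAt (fun v : ℝ => (v : ℂ) + t * I) 1 u := by
      simpa using ((hasDerivAt_id' (u : ℂ)).add_const ((t : ℂ) * I)).comp_ofReal
    rw [hg]
    refine (((hasDerivAt_log_norm ((differentiableAt_riemannZeta (hne1 u)).hasDerivAt.comp u hp)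
      (hζ u hu)).sub (hRd u hu)).congr_deriv ?_).hasDerivWithinAt
    simp only [Function.comp_apply, mul_one, sub_re]
    rfl
  have hgb : ∀ u ∈ Icc (1 / 2 : ℝ) 2, ‖(deriv riemannZeta ((u : ℂ) + t * I) /
      riemannZeta ((u : ℂ) + t * I) - (Z.map fun ρ => ((u : ℂ) + t * I - ρ)⁻¹).sum).re‖ ≤
      K * ell t := fun u hu => by
    refine (Real.norm_eq_abs _).trans_le ((abs_re_le_norm _).trans (hlog _ ?_ (hζ u hu)))
    rw [show (u : ℂ) + t * I - (((3 / 2 : ℝ) : ℂ) + t * I) = ((u - 3 / 2 : ℝ) : ℂ) by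
      push_cast; ring, Complex.norm_real, Real.norm_eq_abs, abs_le]
    constructor <;> linarith [hu.1, hu.2]
  have hg2 : |g 2| ≤ 4 + 6 * (K * ell t) := by
    simp only [hg]
    refine (abs_sub _ _).trans (add_le_add (log_norm_zeta_two t) (hR2.trans ?_))
    linarith
  have hgu : ∀ u ∈ Icc (1 / 2 : ℝ) 2, ‖g u‖ ≤ 4 + 8 * (K * ell t) := fun u hu => by
    have h := (convex_Icc (1 / 2 : ℝ) 2).norm_image_sub_le_of_norm_hasDerivWithin_le hgd hgb
      (right_mem_Icc.2 (by norm_num)) hu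
    rw [Real.norm_eq_abs, Real.norm_eq_abs] at h
    have h' := abs_sub_abs_le_abs_sub (g u) (g 2)
    have hKl : 0 ≤ K * ell t := mul_nonneg hK (ell_pos t).le
    have : |u - 2| ≤ 3 / 2 := abs_le.2 ⟨by linarith [hu.1], by linarith [hu.2]⟩
    rw [Real.norm_eq_abs]
    nlinarith
  have hgi : IntervalIntegrable g volume (1 / 2) 2 := ContinuousOn.intervalIntegrable (by
    rw [uIcc_of_le (by norm_num)]
    exact fun u hu => (hgd u hu).continuousWithinAt)
  have hb : |∫ u in (1 / 2 : ℝ)..2, g u| ≤ 3 / 2 * (4 + 8 * (K * ell t)) := by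
    refine ((Real.norm_eq_abs _).symm.trans_le (intervalIntegral.norm_integral_le_of_norm_le_const
      fun u hu => hgu u ?_)).trans ?_
    · rw [uIoc_of_le (by norm_num)] at hu
      exact ⟨hu.1.le, hu.2⟩
    · rw [abs_of_nonneg (by norm_num)]
      linarith
  have e : (∫ u in (1 / 2 : ℝ)..2, Real.log ‖riemannZeta ((u : ℂ) + t * I)‖) =
      (∫ u in (1 / 2 : ℝ)..2, g u) +
        ∫ u in (1 / 2 : ℝ)..2, (Z.map fun ρ => Real.log ‖(u : ℂ) + t * I - ρ‖).sum := by
    rw [← intervalIntegral.integral_add hgi hRi]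
    simp only [hg, sub_add_cancel]
  rw [e]
  refine (abs_add_le _ _).trans ?_
  have hKl : 0 ≤ K * ell t := mul_nonneg hK (ell_pos t).le
  nlinarith

/-- `|Γℝ (1 + iT)|` is `exp (-πT/4)` up to a constant factor. -/
theorem log_norm_gammaℝ_one (T : ℝ) (hT : 0 ≤ T) :
    |Real.log ‖Gammaℝ (((1 : ℝ) : ℂ) + T * I)‖ + π * T / 4| ≤ 1 := by
  obtain ⟨y, hy⟩ : ∃ y, y = π * T / 2 := ⟨_, rfl⟩
  have hy0 : 0 ≤ y := by rw [hy]; positivity
  obtain ⟨s, hs⟩ : ∃ s : ℂ, s = ((1 / 2 : ℝ) : ℂ) + ((T / 2 : ℝ) : ℂ) * I := ⟨_, rfl⟩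
  have hG : ‖Complex.Gamma s‖ * ‖Complex.Gamma s‖ = π / Real.cosh y := by
    have h := congrArg norm (Complex.Gamma_mul_Gamma_one_sub s)
    have hconj : 1 - s = conj s := by
      subst hs
      apply Complex.ext <;> simp [-Complex.ofReal_div]
      norm_num
    rw [hconj,
      Complex.Gamma_conj, norm_mul, Complex.norm_conj, norm_div, Complex.norm_real,
      Real.norm_of_nonneg Real.pi_pos.le] at h
    rw [h, show (π : ℂ) * s = (y : ℂ) * I + (π : ℂ) / 2 by rw [hs, hy]; push_cast; ring,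
      Complex.sin_add_pi_div_two, Complex.cos_mul_I, ← Complex.ofReal_cosh, Complex.norm_real,
      Real.norm_of_nonneg (Real.cosh_pos y).le]
  have hc1 : Real.exp y / 2 ≤ Real.cosh y := by
    rw [Real.cosh_eq]; linarith [Real.exp_pos (-y)]
  have hc2 : Real.cosh y ≤ Real.exp y := by
    rw [Real.cosh_eq]
    linarith [Real.exp_le_exp.2 (show -y ≤ y by linarith)]
  have hl1 : y - Real.log 2 ≤ Real.log (Real.cosh y) := by
    have := Real.log_le_log (by positivity) hc1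
    rwa [Real.log_div (Real.exp_ne_zero y) two_ne_zero, Real.log_exp] at this
  have hl2 : Real.log (Real.cosh y) ≤ y := by
    have := Real.log_le_log (Real.cosh_pos y) hc2
    rwa [Real.log_exp] at this
  have hGne : ‖Complex.Gamma s‖ ≠ 0 := fun h0 => by
    rw [h0, zero_mul] at hG
    have : 0 < π / Real.cosh y := div_pos Real.pi_pos (Real.cosh_pos y)
    linarith
  have e : Real.log ‖Complex.Gamma s‖ * 2 = Real.log π - Real.log (Real.cosh y) := by
    rw [← Real.log_div Real.pi_ne_zero (Real.cosh_pos y).ne', ← hG,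
      Real.log_mul hGne hGne]
    ring
  rw [Gammaℝ_def, show (((1 : ℝ) : ℂ) + T * I) / 2 = s by rw [hs]; push_cast; ring, norm_mul,
    norm_cpow_eq_rpow_re_of_pos Real.pi_pos, Real.log_mul (by positivity) hGne,
    Real.log_rpow Real.pi_pos]
  rw [show (-(((1 : ℝ) : ℂ) + T * I) / 2).re = -1 / 2 by simp]
  have : π * T / 4 = y / 2 := by rw [hy]; ring
  rw [this, abs_le]
  constructor <;> linarith [Real.log_two_lt_d9, Real.log_pos one_lt_two]

/-- `log |Γℝ|` on the segment. -/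
theorem log_norm_gammaℝ_segment {u T : ℝ} (hT : 4 ≤ T) (hu : u ∈ Icc (1 / 2 : ℝ) 2) :
    |Real.log ‖Gammaℝ ((u : ℂ) + T * I)‖ + π * T / 4| ≤ 1 + 30 * ell T := by
  have hl := four_le_ell T
  have hne : ∀ v : ℝ, Gammaℝ ((v : ℂ) + T * I) ≠ 0 := fun v =>
    gammaℝ_ne_zero (by simp; linarith)
  have hd : ∀ v ∈ Icc (1 / 2 : ℝ) 2,
      HasDerivWithinAt (fun x : ℝ => Real.log ‖Gammaℝ ((x : ℂ) + T * I)‖)
        (gammaLog ((v : ℂ) + T * I)).re (Icc (1 / 2) 2) v := fun v _ => by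
    have hp : HasDerivAt (fun x : ℝ => (x : ℂ) + T * I) 1 v := by
      simpa using ((hasDerivAt_id' (v : ℂ)).add_const ((T : ℂ) * I)).comp_ofReal
    refine ((hasDerivAt_log_norm ((differentiableAt_gammaℝ (hne v)).hasDerivAt.comp v hp)
      (show (Gammaℝ ∘ fun x : ℝ => (x : ℂ) + T * I) v ≠ 0 from hne v)).congr_deriv ?_
      ).hasDerivWithinAt
    simp only [gammaLog, Function.comp_apply, mul_one]
  have hb : ∀ v ∈ Icc (1 / 2 : ℝ) 2, ‖(gammaLog ((v : ℂ) + T * I)).re‖ ≤ 30 * ell T :=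
    fun v hv => by
    have h := abs_le.1 (FA.APoints.abs_re_gammaLog_sub_le (u := v) (by linarith [hv.1])
      (by linarith [hv.2]) hT)
    have h1 : Real.log (T / (2 * π)) ≤ ell T := by
      rw [ell]
      refine Real.log_le_log (by positivity [show 0 < T by linarith]) ?_
      rw [abs_of_nonneg (by linarith), div_le_iff₀ (by positivity)]
      nlinarith [Real.pi_gt_three]
    have h2 : -ell T ≤ Real.log (T / (2 * π)) := by
      have h3 : Real.log (1 / (2 * π)) ≤ Real.log (T / (2 * π)) :=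
        Real.log_le_log (by positivity) (div_le_div_of_nonneg_right (by linarith) (by positivity))
      rw [Real.log_div one_ne_zero (by positivity), Real.log_one, zero_sub] at h3
      have h4 : Real.log (2 * π) ≤ ell T := by
        rw [ell]
        exact Real.log_le_log (by positivity) (by linarith [Real.pi_le_four, abs_nonneg T])
      linarith
    rw [Real.norm_eq_abs, abs_le]
    constructor <;> linarith
  have h := (convex_Icc (1 / 2 : ℝ) 2).norm_image_sub_le_of_norm_hasDerivWithin_le hd hb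
    (show (1 : ℝ) ∈ Icc (1 / 2 : ℝ) 2 by norm_num) hu
  rw [Real.norm_eq_abs, Real.norm_eq_abs] at h
  have h1 := abs_le.1 (log_norm_gammaℝ_one T (by linarith))
  have h2 : 30 * ell T * |u - 1| ≤ 30 * ell T :=
    mul_le_of_le_one_right (by linarith) (abs_le.2 ⟨by linarith [hu.1], by linarith [hu.2]⟩)
  have h3 := abs_le.1 (h.trans h2)
  rw [abs_le]
  constructor <;> linarith

/-- **The horizontal integral of `log |ξ|`.** -/
theorem exists_integral_log_xi : ∃ C, 0 ≤ C ∧ ∀ T : ℝ, 4 ≤ T → (∀ ρ, xiFn ρ = 0 → ρ.im ≠ T) →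
    |(∫ x in (-1 : ℝ)..2, Real.log ‖xiFn ((x : ℂ) + T * I)‖) + 3 * π * T / 4| ≤ C * ell T := by
  obtain ⟨C, hC, hζ⟩ := exists_integral_log_zeta
  refine ⟨2 * C + 110, by positivity, fun T hT hord => ?_⟩
  have hl := four_le_ell T
  obtain ⟨f, hf⟩ : ∃ f : ℝ → ℝ, f = fun x : ℝ => Real.log ‖xiFn ((x : ℂ) + T * I)‖ := ⟨_, rfl⟩
  have hfe : ∀ x : ℝ, Real.log ‖xiFn ((x : ℂ) + T * I)‖ = f x := fun x => by rw [hf]
  simp only [hfe]
  have hne : ∀ x : ℝ, xiFn ((x : ℂ) + T * I) ≠ 0 := fun x h => hord _ h (by simp)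
  have hfc : Continuous f := by
    rw [hf]
    exact Continuous.log (continuous_norm.comp (RiemannMangoldt.differentiable_xiFn.continuous.comp
      (by fun_prop))) fun x => norm_ne_zero_iff.2 (hne x)
  have hsym : ∀ x, f (1 - x) = f x := fun x => by
    simp only [hf]
    rw [show ((1 - x : ℝ) : ℂ) + T * I = 1 - conj ((x : ℂ) + T * I) from
      Complex.ext (by simp) (by simp), xiFn_one_sub, LiCriterion.xiFn_conj, Complex.norm_conj]
  have hhalf : (∫ x in (-1 : ℝ)..(1 / 2), f x) = ∫ x in (1 / 2 : ℝ)..2, f x := by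
    have h := intervalIntegral.integral_comp_sub_left f 1 (a := (1 / 2 : ℝ)) (b := 2)
    rw [show (1 : ℝ) - 2 = -1 by norm_num, show (1 : ℝ) - 1 / 2 = 1 / 2 by norm_num] at h
    rw [← h]
    exact intervalIntegral.integral_congr fun x _ => hsym x
  rw [← intervalIntegral.integral_add_adjacent_intervals (hfc.intervalIntegrable (-1) (1 / 2))
    (hfc.intervalIntegrable (1 / 2) 2), hhalf]
  obtain ⟨E, hE⟩ : ∃ E : ℝ → ℝ, E = fun x : ℝ =>
      f x - Real.log ‖riemannZeta ((x : ℂ) + T * I)‖ + π * T / 4 := ⟨_, rfl⟩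
  have hz : ∀ x ∈ Icc (1 / 2 : ℝ) 2, (x : ℂ) + T * I ≠ 1 ∧
      riemannZeta ((x : ℂ) + T * I) ≠ 0 := fun x hx => by
    have h1 : (x : ℂ) + T * I ≠ 1 := fun h => by
      have := congrArg Complex.im h
      simp at this
      linarith
    exact ⟨h1, fun h0 => hne x ((xiFn_eq_zero_iff (by simp; linarith [hx.1]) h1).2 h0)⟩
  have hEb : ∀ x ∈ Icc (1 / 2 : ℝ) 2, ‖E x‖ ≤ 1 + 33 * ell T := fun x hx => by
    obtain ⟨h1, h2⟩ := hz x hx
    obtain ⟨s, hs⟩ : ∃ s : ℂ, s = (x : ℂ) + T * I := ⟨_, rfl⟩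
    have hre : s.re = x := by simp [hs]
    have him : s.im = T := by simp [hs]
    rw [← hs] at h1 h2
    have hs0 : s ≠ 0 := fun h => by rw [h, zero_im] at him; linarith
    have hg := gammaℝ_ne_zero (s := s) (by rw [him]; linarith)
    have e : f x = Real.log ‖s‖ + Real.log ‖Gammaℝ s‖ + (Real.log ‖s - 1‖ +
        Real.log ‖riemannZeta s‖) - Real.log 2 := by
      simp only [hf, ← hs]
      rw [xiFn_eq (by rw [hre]; linarith [hx.1]), show riemannZeta₁ s = (s - 1) * riemannZeta s by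
          rw [riemannZeta_eq_inv_sub_mul h1]
          field_simp [sub_ne_zero.2 h1],
        norm_div, norm_mul, norm_mul, norm_mul, Complex.norm_two,
        Real.log_div (by simp [hs0, hg, h2, sub_ne_zero.2 h1]) two_ne_zero,
        Real.log_mul (by simp [hs0, hg]) (by simp [h2, sub_ne_zero.2 h1]),
        Real.log_mul (by simp [hs0]) (by simp [hg]),
        Real.log_mul (by simp [sub_ne_zero.2 h1]) (by simp [h2])]
    have hb : ∀ w : ℂ, w.im = T → |w.re| ≤ 2 → |Real.log ‖w‖| ≤ ell T := fun w hw hw2 => by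
      have h3 : 1 ≤ ‖w‖ := (by linarith : (1 : ℝ) ≤ T).trans (hw ▸ Complex.im_le_norm w)
      rw [abs_of_nonneg (Real.log_nonneg h3), ell]
      refine Real.log_le_log (by linarith) ((norm_le_abs_re_add_abs_im w).trans ?_)
      rw [hw]
      linarith
    have b1 := abs_le.1 (hb s him (abs_le.2 ⟨by rw [hre]; linarith [hx.1],
      by rw [hre]; exact hx.2⟩))
    have b2 := abs_le.1 (hb (s - 1) (by simp [him]) (abs_le.2
      ⟨by simp [hre]; linarith [hx.1], by simp [hre]; linarith [hx.2]⟩))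
    have b3 := abs_le.1 (log_norm_gammaℝ_segment hT hx)
    rw [← hs] at b3
    simp only [hE, ← hs, e, Real.norm_eq_abs]
    rw [abs_le]
    constructor <;> linarith [Real.log_two_lt_d9, Real.log_pos one_lt_two]
  have hzc : ContinuousOn (fun x : ℝ => Real.log ‖riemannZeta ((x : ℂ) + T * I)‖)
      (uIcc (1 / 2) 2) := by
    rw [uIcc_of_le (by norm_num)]
    exact fun x hx => (((differentiableAt_riemannZeta (hz x hx).1).continuousAt.comp'
      (f := fun v : ℝ => (v : ℂ) + T * I) (by fun_prop)).norm.log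
        (norm_ne_zero_iff.2 (hz x hx).2)).continuousWithinAt
  have hEi : |∫ x in (1 / 2 : ℝ)..2, E x| ≤ (1 + 33 * ell T) * |2 - 1 / 2| :=
    (Real.norm_eq_abs _).symm.trans_le (intervalIntegral.norm_integral_le_of_norm_le_const
      fun x hx => hEb x (by
        rw [uIoc_of_le (by norm_num)] at hx
        exact ⟨hx.1.le, hx.2⟩))
  simp only [hE] at hEi
  rw [intervalIntegral.integral_add ((hfc.intervalIntegrable _ _).sub hzc.intervalIntegrable)
    intervalIntegrable_const, intervalIntegral.integral_sub (hfc.intervalIntegrable _ _)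
      hzc.intervalIntegrable, intervalIntegral.integral_const, smul_eq_mul] at hEi
  have h1 := abs_le.1 (hζ T (by linarith) hord)
  rw [show |(2 : ℝ) - 1 / 2| = 3 / 2 by norm_num] at hEi
  rw [abs_le] at hEi ⊢
  constructor <;> linarith

end FA.ArgumentMean

end
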