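import Fermat.Agent.ArgumentMean.Stirling
import Fermat.Agent.ArgumentMean.Horizontal
import Fermat.Agent.LevinsonThird.Littlewood

/-!
# `∫ S (t) dt = O (log T)`

Littlewood's lemma for `ξ` rotated a quarter turn gives `∑ (T - γ)` in terms of `log |ξ|` at
height `T` and of the argument on `re s = 2`. As `N` takes integer values and the main term grows
like `(log t) / 2π`, the mean of `|S|` is bounded below, so `S` changes sign.
-/

set_option autoImplicit false

noncomputable section

namespace FA.ArgumentMean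

open Complex Filter Topology MeasureTheory Set
open FA.RiemannMangoldt (xiFn xiLogDeriv zeroCount zetaZeros finite_zetaZeros mem_zetaZeros_iff
  mainTerm logGammaReal arg_eq_arctan)
open FA.ZeroFree (ell four_le_ell ell_pos ell_near)
open scoped Real ComplexConjugate

/-- **Littlewood's lemma for `ξ`, turned a quarter.** -/
theorem sum_heights {T : ℝ} (hT : 0 < T) (hord : ∀ ρ, xiFn ρ = 0 → ρ.im ≠ T) :
    2 * π * ∑ ρ ∈ (finite_zetaZeros T).toFinset,
        (analyticOrderNatAt riemannZeta ρ : ℝ) * (T - ρ.im) =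
      (∫ x in (-1 : ℝ)..2, Real.log ‖xiFn ((x : ℂ) + T * I)‖) -
        (∫ x in (-1 : ℝ)..2, Real.log ‖xiFn (x : ℂ)‖) +
        2 * ∫ v in (0 : ℝ)..T, (T - v) * (xiLogDeriv (((2 : ℝ) : ℂ) + v * I)).re := by
  classical
  obtain ⟨g, hg⟩ : ∃ g : ℂ → ℂ, g = fun z => xiFn (I * ((T : ℂ) - z)) := ⟨_, rfl⟩
  have hin : ∀ z : ℂ, (I * ((T : ℂ) - z)).re = z.im ∧ (I * ((T : ℂ) - z)).im = T - z.re :=
    fun z => by constructor <;> simp
  have hgd : Differentiable ℂ g :=
    hg ▸ RiemannMangoldt.differentiable_xiFn.comp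
      ((differentiable_id.const_sub (T : ℂ)).const_mul I)
  obtain ⟨Z, hZin, hZord, hZe⟩ := FA.LevinsonThird.littlewood_rect isOpen_univ isPreconnected_univ
    hgd.differentiableOn (σ₁ := 0) (σ₂ := T) (y₁ := -1) (y₂ := 2) hT (by norm_num)
    (fun _ _ _ => mem_univ _) fun z h1 h2 h3 h0 => by
      simp only [hg] at h0
      obtain ⟨r1, r2⟩ := hin z
      obtain ⟨s1, s2⟩ := RiemannMangoldt.xiFn_zero_strip h0
      rw [r1] at s1 s2
      rcases h3 with e | e | e | e
      · exact hord _ h0 (by rw [r2, e, sub_zero])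
      · exact ExplicitFormula.im_ne_zero_of_zero h0 (by rw [r2, e, sub_self])
      · linarith
      · linarith
  have hval : ∀ z, deriv g z / g z = -I * xiLogDeriv (I * ((T : ℂ) - z)) := fun z => by
    have hd := (RiemannMangoldt.differentiable_xiFn (I * ((T : ℂ) - z))).hasDerivAt.comp z
      (((hasDerivAt_id' z).const_sub (T : ℂ)).const_mul I)
    rw [hg, show deriv (fun z => xiFn (I * ((T : ℂ) - z))) z = _ from hd.deriv, xiLogDeriv]
    ring
  simp only [hval] at hZe
  have hgv : ∀ z, Real.log ‖g z‖ = Real.log ‖xiFn (I * ((T : ℂ) - z))‖ := fun z => by rw [hg]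
  simp only [hgv] at hZe
  have e0 : ∀ v : ℝ, I * ((T : ℂ) - (((0 : ℝ) : ℂ) + v * I)) = (v : ℂ) + T * I := fun v =>
    Complex.ext (by simp) (by simp)
  have eT : ∀ v : ℝ, I * ((T : ℂ) - ((T : ℂ) + v * I)) = (v : ℂ) := fun v =>
    Complex.ext (by simp) (by simp)
  have e1 : ∀ u : ℝ, I * ((T : ℂ) - ((u : ℂ) + ((-1 : ℝ) : ℂ) * I)) =
      ((-1 : ℝ) : ℂ) + ((T - u : ℝ) : ℂ) * I := fun u => Complex.ext (by simp) (by simp)
  have e2 : ∀ u : ℝ, I * ((T : ℂ) - ((u : ℂ) + ((2 : ℝ) : ℂ) * I)) =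
      ((2 : ℝ) : ℂ) + ((T - u : ℝ) : ℂ) * I := fun u => Complex.ext (by simp) (by simp)
  simp only [e0, eT, e1, e2] at hZe
  have hconj : ∀ s : ℂ, xiLogDeriv (conj s) = conj (xiLogDeriv s) := fun s => by
    have h1 := congrFun (deriv_conj_conj (𝕜 := ℂ) (f := xiFn)) (conj s)
    rw [show conj ∘ xiFn ∘ conj = xiFn from funext fun z => by
      simp [LiCriterion.xiFn_conj]] at h1
    rw [xiLogDeriv, xiLogDeriv, show deriv xiFn (conj s) = conj (deriv xiFn s) by simpa using h1,
      LiCriterion.xiFn_conj, map_div₀]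
  have hreal : ∀ v : ℝ, (-I * xiLogDeriv (v : ℂ)).re = 0 := fun v => by
    have := hconj (v : ℂ)
    rw [Complex.conj_ofReal, eq_comm, Complex.conj_eq_iff_im] at this
    simp [this]
  have hleft : ∀ w : ℝ, (xiLogDeriv (((-1 : ℝ) : ℂ) + w * I)).re =
      -(xiLogDeriv (((2 : ℝ) : ℂ) + w * I)).re := fun w => by
    rw [show ((-1 : ℝ) : ℂ) + w * I = 1 - conj (((2 : ℝ) : ℂ) + w * I) from
      Complex.ext (by simp; norm_num) (by simp), RiemannMangoldt.xiLogDeriv_one_sub, hconj,
      neg_re, conj_re]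
  simp only [hreal, intervalIntegral.integral_zero, mul_zero, sub_zero, add_zero] at hZe
  simp only [neg_mul, neg_im, mul_im, I_re, I_im, zero_mul, one_mul, zero_add, hleft, neg_neg,
    mul_neg, intervalIntegral.integral_neg, sub_neg_eq_add] at hZe
  have hswap := intervalIntegral.integral_comp_sub_left
    (fun v : ℝ => (T - v) * (xiLogDeriv (((2 : ℝ) : ℂ) + v * I)).re) T (a := 0) (b := T)
  rw [sub_self, sub_zero] at hswap
  simp only [sub_sub_cancel] at hswap
  rw [hswap] at hZe
  have hsum : (Z.map fun z => z.re).sum = ∑ ρ ∈ (finite_zetaZeros T).toFinset,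
      (analyticOrderNatAt riemannZeta ρ : ℝ) * (T - ρ.im) := by
    have hinv : ∀ z : ℂ, (T : ℂ) + I * (I * ((T : ℂ) - z)) = z := fun z => by
      rw [← mul_assoc, I_mul_I]; ring
    have hinv' : ∀ s : ℂ, I * ((T : ℂ) - ((T : ℂ) + I * s)) = s := fun s => by
      rw [sub_add_cancel_left, mul_neg, ← mul_assoc, I_mul_I]; ring
    have hord' : ∀ z, analyticOrderNatAt g z =
        analyticOrderNatAt xiFn (I * ((T : ℂ) - z)) := fun z => by
      rw [analyticOrderNatAt, analyticOrderNatAt, hg,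
        show (fun z => xiFn (I * ((T : ℂ) - z))) = xiFn ∘ fun z => I * ((T : ℂ) - z) from rfl,
        analyticOrderAt_comp_of_deriv_ne_zero (g := fun z : ℂ => I * ((T : ℂ) - z)) (f := xiFn)
          (by fun_prop) (by simp)]
    have hbox : ∀ z ∈ Z, z.re ∈ Icc (0 : ℝ) T ∧ z.im ∈ Icc (-1 : ℝ) 2 := fun z hz =>
      ⟨Ioo_subset_Icc_self (hZin z hz).1, Ioo_subset_Icc_self (hZin z hz).2⟩
    rw [Finset.sum_multiset_map_count]
    refine Finset.sum_nbij' (fun z => I * ((T : ℂ) - z)) (fun s => (T : ℂ) + I * s) ?_ ?_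
      (fun z _ => hinv z) (fun s _ => hinv' s) ?_
    · intro z hz
      rw [Multiset.mem_toFinset] at hz
      obtain ⟨h1, h2⟩ := hbox z hz
      have hc : 0 < Z.count z := Multiset.count_pos.2 hz
      rw [← hZord z h1 h2, hord'] at hc
      rw [Set.Finite.mem_toFinset, mem_zetaZeros_iff]
      refine ⟨apply_eq_zero_of_analyticOrderNatAt_ne_zero hc.ne', ?_, ?_⟩ <;> rw [(hin z).2]
      · linarith [(hZin z hz).1.2]
      · linarith [h1.1]
    · intro s hs
      rw [Set.Finite.mem_toFinset, mem_zetaZeros_iff] at hs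
      obtain ⟨hx, h1, h2⟩ := hs
      obtain ⟨a1, a2⟩ := RiemannMangoldt.xiFn_zero_strip hx
      rw [Multiset.mem_toFinset, ← Multiset.one_le_count_iff_mem,
        ← hZord _ (by simp; constructor <;> linarith) (by simp; constructor <;> linarith),
        hord', hinv']
      exact ExplicitFormula.one_le_zeroWeight hx
    · intro z hz
      rw [Multiset.mem_toFinset] at hz
      obtain ⟨h1, h2⟩ := hbox z hz
      have hc : 0 < Z.count z := Multiset.count_pos.2 hz
      have he := hZord z h1 h2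
      rw [← he, hord'] at hc
      obtain ⟨a1, a2⟩ := RiemannMangoldt.xiFn_zero_strip
        (apply_eq_zero_of_analyticOrderNatAt_ne_zero hc.ne')
      rw [nsmul_eq_mul, ← RiemannMangoldt.analyticOrderNatAt_xiFn a1
        (fun h => a2.ne (by rw [h, one_re])), ← hord', he, (hin z).2, sub_sub_cancel]
  rw [hsum] at hZe
  linarith

/-- The argument of `ξ` on `re s = 2`, less that of `ζ`. -/
def gammaArg (v : ℝ) : ℝ :=
  (((2 : ℝ) : ℂ) + v * I).arg + (((2 : ℝ) : ℂ) + v * I - 1).arg +
    (logGammaReal (((2 : ℝ) : ℂ) + v * I)).im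

theorem abs_gammaArg_sub_le {v : ℝ} (hv : 0 < v) :
    |gammaArg v - (π * mainTerm v + 5 * π / 4)| ≤ 27 / v := by
  have h := abs_im_logGammaReal_sub_le (σ := 2) two_pos hv
  have h1 := abs_arctan_div_sub_le hv two_pos
  have h2 := abs_arctan_div_sub_le hv one_pos
  have e : π * mainTerm v = v / 2 * Real.log (v / (2 * π)) - v / 2 := by
    have := Real.pi_ne_zero
    rw [mainTerm]
    field_simp
  rw [gammaArg, arg_eq_arctan (by simp), arg_eq_arctan (by simp), e]
  simp only [sub_re, sub_im, add_re, add_im, mul_re, mul_im, ofReal_re, ofReal_im, I_re, I_im,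
    mul_zero, mul_one, sub_zero, add_zero, zero_add, one_re, one_im]
  rw [show (2 : ℝ) - 1 = 1 by norm_num]
  have e2 : 6 * ((2 : ℝ) / 2 + 1) ^ 2 / v = 24 / v := by norm_num
  rw [e2] at h
  rw [show (2 : ℝ) / 2 - 1 / 2 = 1 / 2 by norm_num] at h
  rw [abs_le] at h h1 h2 ⊢
  rw [show (27 : ℝ) / v = 24 / v + 2 / v + 1 / v by ring]
  constructor <;> linarith

theorem re_zeta_pos_two {s : ℂ} (hs : 2 ≤ s.re) :
    1 / 4 ≤ (riemannZeta s).re ∧ ‖riemannZeta s - 1‖ ≤ 11 / 2 * (2 : ℝ) ^ (-s.re) := by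
  have h := FA.APoints.norm_zeta_right hs
  have hn := FA.APoints.norm_two_cpow_neg s
  have h3 : (3 : ℝ) ^ (2 - s.re) ≤ 9 * (2 : ℝ) ^ (-s.re) := by
    rw [show 2 - s.re = 2 + -s.re by ring, Real.rpow_add three_pos, Real.rpow_two]
    norm_num
    exact Real.rpow_le_rpow_of_nonpos two_pos (by norm_num) (by linarith)
  have h4 : (3 : ℝ) ^ (2 - s.re) ≤ 1 :=
    Real.rpow_le_one_of_one_le_of_nonpos (by norm_num) (by linarith)
  have h2 : (2 : ℝ) ^ (-s.re) ≤ 1 / 4 := by
    refine (Real.rpow_le_rpow_of_exponent_le one_le_two (show -s.re ≤ -(2 : ℕ) by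
      push_cast; linarith)).trans ?_
    rw [Real.rpow_neg two_pos.le, Real.rpow_natCast]
    norm_num
  have hsub : ‖riemannZeta s - 1‖ ≤ ‖riemannZeta s - 1 - (2 : ℂ) ^ (-s)‖ + ‖(2 : ℂ) ^ (-s)‖ := by
    simpa using norm_add_le (riemannZeta s - 1 - (2 : ℂ) ^ (-s)) ((2 : ℂ) ^ (-s))
  refine ⟨?_, by linarith⟩
  have := (abs_le.1 ((abs_re_le_norm _).trans hsub)).1
  rw [sub_re, one_re] at this
  linarith

theorem norm_log_zeta_le {s : ℂ} (hs : 2 ≤ s.re) :
    ‖Complex.log (riemannZeta s)‖ ≤ 200 * (2 : ℝ) ^ (-s.re) := by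
  obtain ⟨h1, h2⟩ := re_zeta_pos_two hs
  obtain ⟨y, hy⟩ : ∃ y : ℝ, y = (2 : ℝ) ^ (-s.re) := ⟨_, rfl⟩
  rw [← hy] at h2 ⊢
  have hy0 : 0 < y := hy ▸ Real.rpow_pos_of_pos two_pos _
  rcases le_or_gt ‖riemannZeta s - 1‖ (1 / 2) with h | h
  · have := Complex.norm_log_one_add_half_le_self h
    rw [add_sub_cancel] at this
    linarith
  · have hn : 1 / 4 ≤ ‖riemannZeta s‖ := h1.trans (Complex.re_le_norm _)
    have hn2 : ‖riemannZeta s‖ ≤ 1 + 11 / 2 * y := by
      have := norm_le_norm_add_norm_sub' (riemannZeta s) 1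
      rw [norm_one] at this
      linarith
    have hy4 : y ≤ 1 / 4 := by
      rw [hy]
      refine (Real.rpow_le_rpow_of_exponent_le one_le_two (show -s.re ≤ -(2 : ℕ) by
        push_cast; linarith)).trans ?_
      rw [Real.rpow_neg two_pos.le, Real.rpow_natCast]
      norm_num
    have h0 : 0 < ‖riemannZeta s‖ := by linarith
    refine (Complex.norm_le_abs_re_add_abs_im _).trans ?_
    rw [Complex.log_re, Complex.log_im]
    have hl1 : |Real.log ‖riemannZeta s‖| ≤ 4 := by
      rw [abs_le]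
      refine ⟨?_, by linarith [Real.log_le_sub_one_of_pos h0]⟩
      have h5 := Real.one_sub_inv_le_log_of_pos h0
      have h6 : ‖riemannZeta s‖⁻¹ ≤ 4 := by
        rw [show (4 : ℝ) = (1 / 4)⁻¹ by norm_num]
        exact inv_anti₀ (by norm_num) hn
      linarith
    linarith [Complex.abs_arg_le_pi (riemannZeta s), Real.pi_le_four]

/-- **The argument of `ζ` on `re s = 2` has a bounded primitive.** -/
theorem abs_integral_arg_zeta_le {T : ℝ} (hT : 0 ≤ T) :
    |∫ v in (0 : ℝ)..T, (riemannZeta (((2 : ℝ) : ℂ) + v * I)).arg| ≤ 1000 := by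
  obtain ⟨F, hF⟩ : ∃ F : ℂ → ℂ, F = fun s => Complex.log (riemannZeta s) := ⟨_, rfl⟩
  obtain ⟨X, hX⟩ : ∃ X, X = T + 3 := ⟨_, rfl⟩
  have hd : ∀ s : ℂ, 2 ≤ s.re → DifferentiableAt ℂ F s := fun s hs => by
    rw [hF]
    refine (differentiableAt_riemannZeta fun h => ?_).clog
      (Or.inl (by linarith [(re_zeta_pos_two hs).1]))
    rw [h, one_re] at hs
    linarith
  have hb : ∀ s : ℂ, 2 ≤ s.re → ‖F s‖ ≤ 200 * (2 : ℝ) ^ (-s.re) := fun s hs =>
    hF ▸ norm_log_zeta_le hs
  have hc : ∀ {a b : ℝ} {p : ℝ → ℂ}, Continuous p → (∀ v ∈ uIcc a b, 2 ≤ (p v).re) →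
      IntervalIntegrable (fun v => F (p v)) volume a b := fun {a b p} hp h =>
    ContinuousOn.intervalIntegrable fun v hv =>
      ((hd _ (h v hv)).continuousAt.comp' hp.continuousAt).continuousWithinAt
  have hrect := Complex.integral_boundary_rect_eq_zero_of_differentiableOn F ((2 : ℝ) : ℂ)
    ((X : ℂ) + T * I) (fun s hs => by
      have h : s.re ∈ uIcc (2 : ℝ) X := by simpa using (mem_reProdIm.1 hs).1
      rw [uIcc_of_le (by linarith)] at h
      exact (hd s h.1).differentiableWithinAt)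
  simp only [add_re, add_im, mul_re, mul_im, ofReal_re, ofReal_im, I_re, I_im, mul_zero, sub_zero,
    mul_one, add_zero, zero_add, ofReal_zero, zero_mul, smul_eq_mul] at hrect
  have hexp : ∀ u : ℝ, (2 : ℝ) ^ (-u) = Real.exp (-Real.log 2 * u) := fun u => by
    rw [Real.rpow_def_of_pos two_pos]; ring_nf
  have hhor : ∀ t : ℝ, ‖∫ x in (2 : ℝ)..X, F ((x : ℂ) + t * I)‖ ≤ 100 := fun t => by
    have hcst : Continuous fun x : ℝ => 200 * (2 : ℝ) ^ (-x) := by simp only [hexp]; fun_prop
    refine (intervalIntegral.norm_integral_le_of_norm_le (by linarith)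
      (Eventually.of_forall fun x hx => ?_) (hcst.intervalIntegrable 2 X)).trans ?_
    · have := hb ((x : ℂ) + t * I) (by simp; linarith [hx.1])
      simpa using this
    · have hd' : ∀ x : ℝ, HasDerivAt
          (fun u : ℝ => -(200 / Real.log 2) * Real.exp (-Real.log 2 * u))
          (200 * (2 : ℝ) ^ (-x)) x := fun x => by
        refine ((((hasDerivAt_id' x).const_mul (-Real.log 2)).exp).const_mul _).congr_deriv ?_
        rw [hexp]
        have := (Real.log_pos one_lt_two).ne'
        field_simp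
      rw [intervalIntegral.integral_eq_sub_of_hasDerivAt (fun x _ => hd' x)
        (hcst.intervalIntegrable _ _), ← hexp, ← hexp]
      have h1 : 0 ≤ 200 / Real.log 2 * (2 : ℝ) ^ (-X) := by positivity
      have h2 : 200 / Real.log 2 * (2 : ℝ) ^ (-(2 : ℝ)) ≤ 100 := by
        rw [Real.rpow_neg two_pos.le, Real.rpow_two, div_mul_eq_mul_div,
          div_le_iff₀ (Real.log_pos one_lt_two)]
        have := Real.log_two_gt_d9
        norm_num
        linarith
      linarith
  have hfar : ‖∫ y in (0 : ℝ)..T, F ((X : ℂ) + y * I)‖ ≤ 200 := by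
    refine (intervalIntegral.norm_integral_le_of_norm_le_const
      (C := 200 * (2 : ℝ) ^ (-X)) fun y _ => ?_).trans ?_
    · have := hb ((X : ℂ) + y * I) (by simp; linarith)
      simpa using this
    · rw [sub_zero, abs_of_nonneg hT, mul_assoc]
      refine mul_le_of_le_one_right (by norm_num) ?_
      rw [Real.rpow_neg two_pos.le, inv_mul_le_iff₀ (by positivity), mul_one,
        Real.rpow_def_of_pos two_pos]
      have := Real.add_one_le_exp (Real.log 2 * X)
      have h2 := mul_le_mul_of_nonneg_right (show 1 / 2 ≤ Real.log 2 by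
        linarith [Real.log_two_gt_d9]) (show 0 ≤ X by linarith)
      have h3 : X / 2 ≤ Real.exp (Real.log 2 * X) := by linarith
      have h5 := mul_le_mul h3 h3 (by linarith) (Real.exp_pos _).le
      have h6 := Real.add_one_le_exp (Real.log 2 * X / 2)
      have h7 : Real.exp (Real.log 2 * X) = Real.exp (Real.log 2 * X / 2) ^ 2 := by
        rw [sq, ← Real.exp_add]; ring_nf
      rw [h7]
      nlinarith [sq_nonneg (X / 4 - 1)]
  obtain ⟨J, hJ⟩ : ∃ J, J = ∫ y in (0 : ℝ)..T, F (((2 : ℝ) : ℂ) + y * I) := ⟨_, rfl⟩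
  rw [← hJ] at hrect
  have hJb : ‖J‖ ≤ 1000 := by
    obtain ⟨A, hA⟩ : ∃ A, A = ∫ x in (2 : ℝ)..X, F ((x : ℂ)) := ⟨_, rfl⟩
    have hA1 : ‖A‖ ≤ 100 := by simpa [hA] using hhor 0
    rw [← hA] at hrect
    have e : I * J = A - (∫ x in (2 : ℝ)..X, F ((x : ℂ) + T * I)) +
        I * ∫ y in (0 : ℝ)..T, F ((X : ℂ) + y * I) := by linear_combination -hrect
    have h1 := congrArg norm e
    rw [norm_mul, Complex.norm_I, one_mul] at h1
    rw [h1]
    refine (norm_add_le _ _).trans ?_
    rw [norm_mul, Complex.norm_I, one_mul]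
    linarith [norm_sub_le A (∫ x in (2 : ℝ)..X, F ((x : ℂ) + T * I)), hhor T]
  have hi : IntervalIntegrable (fun v : ℝ => F (((2 : ℝ) : ℂ) + v * I)) volume 0 T :=
    hc (by fun_prop) fun v _ => by simp
  rw [show (∫ v in (0 : ℝ)..T, (riemannZeta (((2 : ℝ) : ℂ) + v * I)).arg) = J.im by
    rw [hJ, (FA.LevinsonThird.integral_re_im hi).2]
    simp [hF, Complex.log_im]]
  exact (abs_im_le_norm _).trans hJb

theorem hasDerivAt_argTwo (v : ℝ) : HasDerivAt
    (fun w : ℝ => gammaArg w + (riemannZeta (((2 : ℝ) : ℂ) + w * I)).arg)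
    (xiLogDeriv (((2 : ℝ) : ℂ) + v * I)).re v := by
  obtain ⟨P, hP⟩ : ∃ P : ℂ → ℂ, P = fun s => Complex.log s + Complex.log (s - 1) +
      logGammaReal s + Complex.log (riemannZeta s) := ⟨_, rfl⟩
  have hre : (((2 : ℝ) : ℂ) + v * I).re = 2 := by simp
  have hne : ((2 : ℝ) : ℂ) + v * I ≠ 1 := fun h => by rw [h] at hre; norm_num at hre
  have hd : HasDerivAt P (xiLogDeriv (((2 : ℝ) : ℂ) + v * I)) (((2 : ℝ) : ℂ) + v * I) := by
    rw [hP, RiemannMangoldt.xiLogDeriv_eq (by rw [hre]; norm_num) hne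
      (riemannZeta_ne_zero_of_one_le_re (by rw [hre]; norm_num))]
    refine (((hasDerivAt_id' _).clog (Or.inl (by rw [hre]; norm_num))).add
      (((hasDerivAt_id' _).sub_const 1).clog (Or.inl (by simp)))).add
      (RiemannMangoldt.hasDerivAt_logGammaReal (by rw [hre]; norm_num)) |>.add
      ((differentiableAt_riemannZeta hne).hasDerivAt.clog
        (Or.inl RiemannMangoldt.norm_zeta_sub_one_lt)) |>.congr_deriv ?_
    simp only [one_div]
  have h1 := hd.comp v (((hasDerivAt_id' (v : ℂ)).mul_const I).const_add ((2 : ℝ) : ℂ)).comp_ofReal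
  have h2 := Complex.imCLM.hasFDerivAt.comp_hasDerivAt v h1
  refine (h2.congr_of_eventuallyEq (Eventually.of_forall fun w => ?_)).congr_deriv (by simp)
  simp [hP, gammaArg, Complex.log_im]

theorem argTwo_zero :
    gammaArg 0 + (riemannZeta (((2 : ℝ) : ℂ) + ((0 : ℝ) : ℂ) * I)).arg = 0 := by
  have h1 : (logGammaReal ((2 : ℝ) : ℂ)).im = 0 := by
    have h := RiemannMangoldt.logGam_conj_im (z := ((1 : ℝ) : ℂ)) (by simp)
    rw [Complex.conj_ofReal] at h
    rw [RiemannMangoldt.im_logGammaReal, show ((2 : ℝ) : ℂ) / 2 = ((1 : ℝ) : ℂ) by norm_num]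
    simp only [ofReal_im, zero_div, neg_zero, zero_mul, zero_add]
    linarith
  have h2 : (riemannZeta ((2 : ℝ) : ℂ)).arg = 0 := by
    refine Complex.arg_eq_zero_iff.2 ⟨?_, ?_⟩
    · linarith [(re_zeta_pos_two (s := ((2 : ℝ) : ℂ)) (by simp)).1]
    · exact Complex.conj_eq_iff_im.1 (by rw [← riemannZeta_conj, Complex.conj_ofReal])
  rw [gammaArg, ofReal_zero, zero_mul, add_zero, h1, h2,
    Complex.arg_ofReal_of_nonneg two_pos.le,
    show ((2 : ℝ) : ℂ) - 1 = ((1 : ℝ) : ℂ) by norm_num, Complex.arg_ofReal_of_nonneg zero_le_one]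
  norm_num

theorem continuous_gammaArg : Continuous gammaArg := by
  refine continuous_iff_continuousAt.2 fun v => ?_
  have h := (hasDerivAt_argTwo v).continuousAt
  have hz : ContinuousAt (fun w : ℝ => (riemannZeta (((2 : ℝ) : ℂ) + w * I)).arg) v := by
    have hre : (((2 : ℝ) : ℂ) + v * I).re = 2 := by simp
    refine (Complex.continuousAt_arg (Or.inl RiemannMangoldt.norm_zeta_sub_one_lt)).comp'
      (f := fun w : ℝ => riemannZeta (((2 : ℝ) : ℂ) + w * I)) ((differentiableAt_riemannZeta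
        fun h => by rw [h] at hre; norm_num at hre).continuousAt.comp'
          (f := fun w : ℝ => ((2 : ℝ) : ℂ) + w * I) (by fun_prop))
  exact (h.sub hz).congr (Eventually.of_forall fun w => by simp)

theorem continuous_mainTerm : Continuous mainTerm := by
  have h : Continuous fun x : ℝ => x / (2 * π) * Real.log (x / (2 * π)) - x / (2 * π) :=
    (Real.continuous_mul_log.comp (continuous_id.div_const _)).sub (continuous_id.div_const _)
  exact h

/-- **The vertical side.** -/
theorem exists_vertical : ∃ C, 0 ≤ C ∧ ∀ T : ℝ, 2 ≤ T →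
    |(∫ v in (0 : ℝ)..T, (T - v) * (xiLogDeriv (((2 : ℝ) : ℂ) + v * I)).re) -
      (π * (∫ v in (0 : ℝ)..T, mainTerm v) + 5 * π / 4 * T)| ≤ C * Real.log T := by
  obtain ⟨d, hd⟩ : ∃ d : ℝ → ℝ, d = fun v : ℝ => gammaArg v - (π * mainTerm v + 5 * π / 4) :=
    ⟨_, rfl⟩
  have hdc : Continuous d :=
    hd ▸ continuous_gammaArg.sub ((continuous_mainTerm.const_mul π).add continuous_const)
  obtain ⟨M, hM⟩ : ∃ M, M = |∫ v in (0 : ℝ)..1, d v| + 1000 := ⟨_, rfl⟩
  have hM0 : 0 ≤ M := hM ▸ by positivity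
  refine ⟨2 * M + 27, by positivity, fun T hT => ?_⟩
  obtain ⟨G, hG⟩ : ∃ G : ℝ → ℝ,
      G = fun w : ℝ => gammaArg w + (riemannZeta (((2 : ℝ) : ℂ) + w * I)).arg := ⟨_, rfl⟩
  obtain ⟨L, hL⟩ : ∃ L : ℝ → ℝ,
      L = fun v : ℝ => (xiLogDeriv (((2 : ℝ) : ℂ) + v * I)).re := ⟨_, rfl⟩
  have hGd : ∀ v, HasDerivAt G (L v) v := fun v => by rw [hG, hL]; exact hasDerivAt_argTwo v
  have hLc : Continuous L := hL ▸ Complex.continuous_re.comp (continuous_iff_continuousAt.2
    fun v => (RiemannMangoldt.continuousAt_xiLogDeriv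
      (RiemannMangoldt.xiFn_ne_zero_of_one_le (by simp))).comp'
        (f := fun w : ℝ => ((2 : ℝ) : ℂ) + w * I) (by fun_prop))
  have hGc : Continuous G := continuous_iff_continuousAt.2 fun v => (hGd v).continuousAt
  have hparts := intervalIntegral.integral_eq_sub_of_hasDerivAt (a := 0) (b := T)
    (f := fun v : ℝ => (T - v) * G v) (fun v _ => ((hasDerivAt_id' v).const_sub T).mul (hGd v))
    ((Continuous.intervalIntegrable (by fun_prop) 0 T).add
      (Continuous.intervalIntegrable (by fun_prop) 0 T))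
  rw [show G 0 = 0 by rw [hG]; exact argTwo_zero, sub_self, zero_mul, mul_zero, sub_zero,
    intervalIntegral.integral_add (Continuous.intervalIntegrable (by fun_prop) _ _)
      (Continuous.intervalIntegrable (by fun_prop) _ _)] at hparts
  simp only [neg_mul, one_mul, intervalIntegral.integral_neg] at hparts
  have hval : (∫ v in (0 : ℝ)..T, (T - v) * (xiLogDeriv (((2 : ℝ) : ℂ) + v * I)).re) =
      ∫ v in (0 : ℝ)..T, G v := by
    rw [hL] at hparts
    linarith
  have hargc : Continuous fun v : ℝ => (riemannZeta (((2 : ℝ) : ℂ) + v * I)).arg := by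
    exact (hGc.sub continuous_gammaArg).congr fun v => by simp [hG]
  have hsplit : (∫ v in (0 : ℝ)..T, G v) = (∫ v in (0 : ℝ)..T, d v) +
      (∫ v in (0 : ℝ)..T, (riemannZeta (((2 : ℝ) : ℂ) + v * I)).arg) +
        (π * (∫ v in (0 : ℝ)..T, mainTerm v) + 5 * π / 4 * T) := by
    rw [show (5 : ℝ) * π / 4 * T = ∫ _ in (0 : ℝ)..T, 5 * π / 4 by simp; ring,
      ← intervalIntegral.integral_const_mul, ← intervalIntegral.integral_add
        (hdc.intervalIntegrable _ _) (hargc.intervalIntegrable _ _),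
      ← intervalIntegral.integral_add ((continuous_mainTerm.const_mul π).intervalIntegrable _ _)
        (continuous_const.intervalIntegrable _ _),
      ← intervalIntegral.integral_add
        (f := fun v : ℝ => d v + (riemannZeta (((2 : ℝ) : ℂ) + v * I)).arg)
        (g := fun v : ℝ => π * mainTerm v + 5 * π / 4)
        ((hdc.add hargc).intervalIntegrable _ _)
        (((continuous_mainTerm.const_mul π).add continuous_const).intervalIntegrable _ _)]
    refine intervalIntegral.integral_congr fun v _ => ?_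
    simp only [hG, hd]
    ring
  have hd1 : |∫ v in (1 : ℝ)..T, d v| ≤ 27 * Real.log T := by
    refine (Real.norm_eq_abs _).symm.trans_le ((intervalIntegral.norm_integral_le_of_norm_le
      (g := fun v : ℝ => 27 / v) (by linarith) (Eventually.of_forall fun v hv => ?_) ?_).trans ?_)
    · rw [Real.norm_eq_abs, hd]
      exact abs_gammaArg_sub_le (by linarith [hv.1])
    · refine (ContinuousOn.div continuousOn_const continuousOn_id fun v hv => ?_).intervalIntegrable
      rw [uIcc_of_le (by linarith)] at hv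
      exact ne_of_gt (lt_of_lt_of_le one_pos hv.1)
    · simp only [div_eq_mul_inv]
      rw [intervalIntegral.integral_const_mul, integral_inv_of_pos one_pos (by linarith)]
      norm_num
  have hd0 := intervalIntegral.integral_add_adjacent_intervals (hdc.intervalIntegrable 0 1)
    (hdc.intervalIntegrable 1 T) (μ := volume)
  have harg := abs_le.1 (abs_integral_arg_zeta_le (T := T) (by linarith))
  rw [hval, hsplit, ← hd0]
  have hl : 1 / 2 ≤ Real.log T := by
    have := Real.log_le_log two_pos hT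
    linarith [Real.log_two_gt_d9]
  have hMl : M ≤ 2 * M * Real.log T := by nlinarith
  have h0 := abs_le.1 (le_refl |∫ v in (0 : ℝ)..1, d v|)
  rw [abs_le] at hd1 ⊢
  rw [hM] at hMl ⊢
  constructor <;> linarith

/-- `S t`, up to `O (1/t)`. -/
def argTerm (t : ℝ) : ℝ := (zeroCount t : ℝ) - mainTerm t - 7 / 8

theorem intervalIntegrable_zeroCount (a b : ℝ) :
    IntervalIntegrable (fun t => (zeroCount t : ℝ)) volume a b :=
  (show Monotone (fun t => (zeroCount t : ℝ)) from fun _ _ h =>
    Nat.cast_le.2 (RiemannMangoldt.zeroCount_mono h)).intervalIntegrable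

theorem intervalIntegrable_argTerm (a b : ℝ) : IntervalIntegrable argTerm volume a b :=
  ((intervalIntegrable_zeroCount a b).sub (continuous_mainTerm.intervalIntegrable a b)).sub
    intervalIntegrable_const

/-- `∫ N = ∑ (T - γ)`. -/
theorem integral_zeroCount {T : ℝ} (hT : 0 ≤ T) :
    (∫ t in (0 : ℝ)..T, (zeroCount t : ℝ)) = ∑ ρ ∈ (finite_zetaZeros T).toFinset,
      (analyticOrderNatAt riemannZeta ρ : ℝ) * (T - ρ.im) := by
  classical
  have h : ∀ t ∈ uIcc 0 T, (zeroCount t : ℝ) = ∑ ρ ∈ (finite_zetaZeros T).toFinset,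
      (analyticOrderNatAt riemannZeta ρ : ℝ) * (Ici ρ.im).indicator 1 t := fun t ht => by
    rw [uIcc_of_le hT] at ht
    rw [zeroCount, Nat.cast_sum]
    have hsub : (finite_zetaZeros t).toFinset =
        (finite_zetaZeros T).toFinset.filter (fun ρ => ρ.im ≤ t) := Finset.ext fun ρ => by
      simp only [Finset.mem_filter, Set.Finite.mem_toFinset, mem_zetaZeros_iff]
      exact ⟨fun ⟨a, b, c⟩ => ⟨⟨a, b, c.trans ht.2⟩, c⟩, fun ⟨⟨a, b, _⟩, c⟩ => ⟨a, b, c⟩⟩
    rw [hsub, Finset.sum_filter]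
    refine Finset.sum_congr rfl fun ρ _ => ?_
    rw [Set.indicator_apply]
    simp only [Set.mem_Ici, Pi.one_apply]
    split_ifs <;> simp
  have hmon : ∀ ρ : ℂ, IntervalIntegrable
      (fun t : ℝ => (Ici ρ.im).indicator (1 : ℝ → ℝ) t) volume 0 T := fun ρ =>
    (show Monotone ((Ici ρ.im).indicator (1 : ℝ → ℝ)) from fun x y hxy => by
      simp only [Set.indicator_apply, Set.mem_Ici, Pi.one_apply]
      split_ifs <;> linarith).intervalIntegrable
  rw [intervalIntegral.integral_congr h, intervalIntegral.integral_finsetSum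
    fun ρ _ => (hmon ρ).const_mul _]
  refine Finset.sum_congr rfl fun ρ hρ => ?_
  rw [intervalIntegral.integral_const_mul]
  congr 1
  rw [Set.Finite.mem_toFinset, mem_zetaZeros_iff] at hρ
  obtain ⟨-, h1, h2⟩ := hρ
  rw [← intervalIntegral.integral_add_adjacent_intervals
    ((hmon ρ).mono_set (c := 0) (d := ρ.im) (by
      rw [uIcc_of_le hT, uIcc_of_le h1.le]; exact Icc_subset_Icc le_rfl h2))
    ((hmon ρ).mono_set (c := ρ.im) (d := T) (by
      rw [uIcc_of_le hT, uIcc_of_le h2]; exact Icc_subset_Icc h1.le le_rfl))]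
  have i1 : (∫ t in (0 : ℝ)..ρ.im, (Ici ρ.im).indicator (1 : ℝ → ℝ) t) =
      ∫ _ in (0 : ℝ)..ρ.im, (0 : ℝ) :=
    intervalIntegral.integral_congr_ae
      ((Countable.ae_notMem (Set.countable_singleton ρ.im) volume).mono fun t ht hm => by
        rw [uIoc_of_le h1.le] at hm
        exact Set.indicator_of_notMem (fun h' => ht (le_antisymm hm.2 h')) _)
  have i2 : (∫ t in ρ.im..T, (Ici ρ.im).indicator (1 : ℝ → ℝ) t) = ∫ _ in ρ.im..T, (1 : ℝ) :=
    intervalIntegral.integral_congr fun t ht => by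
      rw [uIcc_of_le h2] at ht
      exact Set.indicator_of_mem (show t ∈ Ici ρ.im from ht.1) _
  rw [i1, i2]
  simp

/-- **At the heights that are no ordinates.** -/
theorem exists_nonordinate : ∃ C, 0 ≤ C ∧ ∀ T : ℝ, 4 ≤ T → (∀ ρ, xiFn ρ = 0 → ρ.im ≠ T) →
    |∫ t in (0 : ℝ)..T, argTerm t| ≤ C * ell T := by
  obtain ⟨C₁, hC₁, hhor⟩ := exists_integral_log_xi
  obtain ⟨C₂, hC₂, hver⟩ := exists_vertical
  obtain ⟨H, hH⟩ : ∃ H, H = |∫ x in (-1 : ℝ)..2, Real.log ‖xiFn (x : ℂ)‖| := ⟨_, rfl⟩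
  have hH0 : 0 ≤ H := hH ▸ abs_nonneg _
  refine ⟨C₁ + H + C₂, by positivity, fun T hT hord => ?_⟩
  have hsum := sum_heights (show 0 < T by linarith) hord
  rw [← integral_zeroCount (by linarith)] at hsum
  have h1 := abs_le.1 (hhor T hT hord)
  have h2 := abs_le.1 (hver T (by linarith))
  have h3 := abs_le.1 hH.ge
  have hl : Real.log T ≤ ell T := by
    rw [ell]
    exact Real.log_le_log (by linarith) (by linarith [le_abs_self T])
  have h4 := mul_le_mul_of_nonneg_left hl hC₂
  have h5 : H * 1 ≤ H * ell T := mul_le_mul_of_nonneg_left (by linarith [four_le_ell T]) hH0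
  have h6 := mul_nonneg hC₁ (ell_pos T).le
  have e : (∫ t in (0 : ℝ)..T, argTerm t) = (∫ t in (0 : ℝ)..T, (zeroCount t : ℝ)) -
      (∫ t in (0 : ℝ)..T, mainTerm t) - 7 / 8 * T := by
    unfold argTerm
    rw [intervalIntegral.integral_sub ((intervalIntegrable_zeroCount 0 T).sub
      (continuous_mainTerm.intervalIntegrable 0 T)) intervalIntegrable_const,
      intervalIntegral.integral_sub (intervalIntegrable_zeroCount 0 T)
        (continuous_mainTerm.intervalIntegrable 0 T)]
    simp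
    ring
  have hb : |2 * π * (∫ t in (0 : ℝ)..T, argTerm t)| ≤ (C₁ + H + 2 * C₂) * ell T := by
    rw [e, mul_sub, mul_sub, hsum, abs_le]
    constructor <;> linarith
  rw [abs_mul, abs_of_pos (show 0 < 2 * π by positivity)] at hb
  nlinarith [abs_nonneg (∫ t in (0 : ℝ)..T, argTerm t), Real.pi_gt_three,
    mul_nonneg hC₂ (ell_pos T).le, mul_nonneg hH0 (ell_pos T).le]

theorem exists_abs_argTerm_le : ∃ C, 0 ≤ C ∧ ∀ t : ℝ, 3 ≤ t → |argTerm t| ≤ C * ell t := by
  obtain ⟨C, hC, h⟩ := RiemannMangoldt.exists_count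
  refine ⟨C + 1, by positivity, fun t ht => ?_⟩
  have h1 := abs_le.1 (h t ht)
  rw [argTerm, abs_le]
  constructor <;> linarith [four_le_ell t]

theorem ell_le_log {T : ℝ} (hT : 2 ≤ T) : ell T ≤ 7 * Real.log T := by
  rw [show (7 : ℝ) * Real.log T = Real.log (T ^ 7) by rw [Real.log_pow]; norm_num]
  refine Real.log_le_log (by positivity) ?_
  rw [abs_of_nonneg (by linarith)]
  have : (64 : ℝ) ≤ T ^ 6 := by
    calc (64 : ℝ) = 2 ^ 6 := by norm_num
      _ ≤ _ := pow_le_pow_left₀ two_pos.le hT 6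
  nlinarith

/-- **Littlewood's theorem.** -/
theorem exists_littlewood_mean : ∃ C, 0 ≤ C ∧ ∀ T : ℝ, 2 ≤ T →
    |∫ t in (0 : ℝ)..T, argTerm t| ≤ C * Real.log T := by
  obtain ⟨C, hC, hmain⟩ := exists_nonordinate
  obtain ⟨D, hD, hpt⟩ := exists_abs_argTerm_le
  obtain ⟨M, hM⟩ : ∃ M, M = ∫ t in (0 : ℝ)..4, |argTerm t| := ⟨_, rfl⟩
  have hM0 : 0 ≤ M := hM ▸ intervalIntegral.integral_nonneg (by norm_num) fun _ _ => abs_nonneg _
  refine ⟨14 * C + 14 * D + 2 * M, by positivity, fun T hT => ?_⟩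
  have hl : 1 / 2 ≤ Real.log T := by
    have := Real.log_le_log two_pos hT
    linarith [Real.log_two_gt_d9]
  have hMl : M ≤ 2 * M * Real.log T := by nlinarith
  have hCl := mul_nonneg hC (show 0 ≤ Real.log T by linarith)
  have hDl := mul_nonneg hD (show 0 ≤ Real.log T by linarith)
  rcases le_or_gt T 4 with h4 | h4
  · refine (intervalIntegral.abs_integral_le_integral_abs (by linarith)).trans ?_
    refine (intervalIntegral.integral_mono_interval le_rfl (by linarith) h4
      (Eventually.of_forall fun t => abs_nonneg _)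
      (intervalIntegrable_argTerm 0 4).abs).trans ?_
    rw [← hM]
    linarith
  obtain ⟨A, hA⟩ : ∃ A : Set ℝ, A = Complex.im '' zetaZeros (T + 1) := ⟨_, rfl⟩
  have hAf : A.Finite := hA ▸ (finite_zetaZeros _).image _
  obtain ⟨T', hT'I, hT'A⟩ := ((Ioo_infinite (show T < T + 1 by linarith)).sdiff hAf).nonempty
  have hord : ∀ ρ, xiFn ρ = 0 → ρ.im ≠ T' := fun ρ hρ him => hT'A (hA ▸
    ⟨ρ, mem_zetaZeros_iff.2 ⟨hρ, by rw [him]; linarith [hT'I.1], by rw [him]; exact hT'I.2.le⟩,
      him⟩)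
  have h1 := hmain T' (by linarith [hT'I.1]) hord
  have he : ∀ t ∈ Icc T T', ell t ≤ 2 * ell T := fun t ht => by
    have := ell_near (s := t) (t := T) (abs_le.2 ⟨by linarith [ht.1], by
      linarith [ht.2, hT'I.2]⟩)
    linarith [ell_pos T]
  have h2 : |∫ t in T..T', argTerm t| ≤ 2 * D * ell T := by
    refine ((Real.norm_eq_abs _).symm.trans_le (intervalIntegral.norm_integral_le_of_norm_le_const
      (C := 2 * D * ell T) fun t ht => ?_)).trans ?_
    · rw [uIoc_of_le hT'I.1.le] at ht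
      refine (Real.norm_eq_abs _).trans_le ((hpt t (by linarith [ht.1])).trans ?_)
      calc D * ell t ≤ D * (2 * ell T) := mul_le_mul_of_nonneg_left (he t ⟨ht.1.le, ht.2⟩) hD
        _ = 2 * D * ell T := by ring
    · refine mul_le_of_le_one_right (by positivity [ell_pos T]) ?_
      rw [abs_of_nonneg (by linarith [hT'I.1])]
      linarith [hT'I.2]
  have h3 := intervalIntegral.integral_add_adjacent_intervals (intervalIntegrable_argTerm 0 T)
    (intervalIntegrable_argTerm T T')
  have h6 := mul_le_mul_of_nonneg_left (he T' ⟨hT'I.1.le, le_rfl⟩) hC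
  have h7 := ell_le_log (T := T) (by linarith)
  have h8 := mul_le_mul_of_nonneg_left h7 hC
  have h9 := mul_le_mul_of_nonneg_left h7 hD
  rw [abs_le] at h1 h2 ⊢
  constructor <;> linarith

/-- **The mean of `|S|` is bounded below.** -/
theorem eventually_mean_abs : ∀ᶠ T : ℝ in atTop, T / 16 ≤ ∫ t in T..2 * T, |argTerm t| := by
  filter_upwards [eventually_ge_atTop (1000 : ℝ)] with T hT
  have hπ := Real.pi_pos
  obtain ⟨L, hL⟩ : ∃ L, L = Real.log (T / (2 * π)) := ⟨_, rfl⟩
  have hbig : 2 ≤ T / (2 * π) := by rw [le_div_iff₀ (by positivity)]; linarith [Real.pi_le_four]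
  have hL2 : Real.log 2 ≤ L := hL ▸ Real.log_le_log two_pos hbig
  have hL0 : 0 < L := (Real.log_pos one_lt_two).trans_le hL2
  obtain ⟨G, hG⟩ : ∃ G : ℝ → ℝ, G = fun t : ℝ =>
      (mainTerm t + 7 / 8) / 2 - Real.sin (2 * π * (mainTerm t + 7 / 8)) / (4 * π) := ⟨_, rfl⟩
  have hm : ∀ t : ℝ, 0 < t →
      HasDerivAt mainTerm (Real.log (t / (2 * π)) / (2 * π)) t := fun t ht => by
    have h1 := (hasDerivAt_id' t).div_const (2 * π)
    refine ((h1.mul (h1.log (div_ne_zero ht.ne' (by positivity)))).sub h1).congr_deriv ?_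
    field_simp
    ring
  have hGd : ∀ t ∈ uIcc T (2 * T), HasDerivAt G
      (Real.sin (π * (mainTerm t + 7 / 8)) ^ 2 * (Real.log (t / (2 * π)) / (2 * π))) t :=
    fun t ht => by
    rw [uIcc_of_le (by linarith)] at ht
    have hu := (hm t (by linarith [ht.1])).add_const (7 / 8)
    rw [hG]
    refine ((hu.div_const 2).sub (((hu.const_mul (2 * π)).sin).div_const (4 * π))).congr_deriv ?_
    rw [Real.sin_sq_eq_half_sub, show 2 * (π * (mainTerm t + 7 / 8)) =
      2 * π * (mainTerm t + 7 / 8) by ring]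
    field_simp
    ring
  have hint : IntervalIntegrable (fun t : ℝ => Real.sin (π * (mainTerm t + 7 / 8)) ^ 2 *
      (Real.log (t / (2 * π)) / (2 * π))) volume T (2 * T) := by
    refine ContinuousOn.intervalIntegrable (ContinuousOn.mul ?_ (ContinuousOn.div_const
      (ContinuousOn.log (by fun_prop) fun t ht => ?_) _))
    · exact ((Real.continuous_sin.comp
        ((continuous_mainTerm.add continuous_const).const_mul π)).pow 2).continuousOn
    · rw [uIcc_of_le (by linarith)] at ht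
      exact (div_pos (by linarith [ht.1]) (by positivity)).ne'
  have hFTC := intervalIntegral.integral_eq_sub_of_hasDerivAt hGd hint
  have hle : (∫ t in T..2 * T, Real.sin (π * (mainTerm t + 7 / 8)) ^ 2 *
      (Real.log (t / (2 * π)) / (2 * π))) ≤ ∫ t in T..2 * T, L * |argTerm t| := by
    refine intervalIntegral.integral_mono_on (by linarith) hint
      ((intervalIntegrable_argTerm _ _).abs.const_mul _) fun t ht => ?_
    have h1 : 0 ≤ Real.log (t / (2 * π)) :=
      Real.log_nonneg ((one_le_two.trans hbig).trans (div_le_div_of_nonneg_right ht.1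
        (by positivity)))
    have h2 : Real.log (t / (2 * π)) ≤ L + Real.log 2 := by
      rw [hL, add_comm, ← Real.log_mul two_ne_zero (by linarith)]
      refine Real.log_le_log (div_pos (by linarith [ht.1]) (by positivity)) ?_
      rw [← mul_div_assoc]
      exact div_le_div_of_nonneg_right ht.2 (by positivity)
    have h3 : Real.sin (π * (mainTerm t + 7 / 8)) ^ 2 ≤ π * |argTerm t| := by
      have e : |Real.sin (π * (mainTerm t + 7 / 8))| = |Real.sin (π * argTerm t)| := by
        rw [show π * argTerm t = ((zeroCount t : ℕ) : ℝ) * π - π * (mainTerm t + 7 / 8) by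
          rw [argTerm]; ring, Real.sin_nat_mul_pi_sub, abs_neg, abs_mul, abs_pow, abs_neg,
          abs_one, one_pow, one_mul]
      have h4 := Real.abs_sin_le_abs (x := π * argTerm t)
      rw [← e, abs_mul, abs_of_pos hπ] at h4
      refine le_trans ?_ h4
      rw [← sq_abs, sq]
      exact mul_le_of_le_one_right (abs_nonneg _) (Real.abs_sin_le_one _)
    calc _ ≤ π * |argTerm t| * ((L + Real.log 2) / (2 * π)) :=
          mul_le_mul h3 (div_le_div_of_nonneg_right h2 (by positivity)) (by positivity)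
            (by positivity)
      _ = (L + Real.log 2) / 2 * |argTerm t| := by field_simp
      _ ≤ _ := mul_le_mul_of_nonneg_right (by linarith) (abs_nonneg _)
  rw [intervalIntegral.integral_const_mul, hFTC] at hle
  have e1 : mainTerm (2 * T) - mainTerm T =
      T / (2 * π) * L + T / π * Real.log 2 - T / (2 * π) := by
    rw [mainTerm, mainTerm, hL, show 2 * T / (2 * π) = 2 * (T / (2 * π)) by ring,
      Real.log_mul two_ne_zero (by positivity)]
    ring
  have e2 : T / (2 * π) * L ≤ mainTerm (2 * T) - mainTerm T := by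
    have : 0 ≤ T / π * (Real.log 2 - 1 / 2) := mul_nonneg (by positivity)
      (by linarith [Real.log_two_gt_d9])
    have e4 : T / π * (Real.log 2 - 1 / 2) = T / π * Real.log 2 - T / (2 * π) := by ring
    rw [e1]
    linarith
  have e3 : T / (4 * π) * L - 1 / (2 * π) ≤ G (2 * T) - G T := by
    have hs : ∀ x : ℝ, |Real.sin x / (4 * π)| ≤ 1 / (4 * π) := fun x => by
      rw [abs_div, abs_of_pos (show 0 < 4 * π by positivity)]
      exact div_le_div_of_nonneg_right (Real.abs_sin_le_one x) (by positivity)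
    simp only [hG]
    linarith [(abs_le.1 (hs (2 * π * (mainTerm (2 * T) + 7 / 8)))).2,
      (abs_le.1 (hs (2 * π * (mainTerm T + 7 / 8)))).1,
      show T / (4 * π) * L = T / (2 * π) * L / 2 by ring,
      show 1 / (2 * π) = 1 / (4 * π) + 1 / (4 * π) by ring]
  have h5 : 1 / (2 * π) ≤ 1 * L := by
    rw [div_le_iff₀ (by positivity)]
    nlinarith [Real.log_two_gt_d9, Real.pi_gt_three]
  have h6 : L * (T / (4 * π) - 1) ≤ L * ∫ t in T..2 * T, |argTerm t| := by linarith
  have h7 := le_of_mul_le_mul_left h6 hL0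
  have h8 : T / 15 ≤ T / (4 * π) := by
    refine div_le_div_of_nonneg_left (by linarith) (by positivity) ?_
    linarith [Real.pi_lt_d2]
  linarith

/-- **`S` changes sign in every `[T, 2T]`.** -/
theorem eventually_sign_change : ∀ᶠ T : ℝ in atTop,
    (∃ t ∈ Icc T (2 * T), 1 / 80 < argTerm t) ∧
      ∃ t ∈ Icc T (2 * T), argTerm t < -(1 / 80) := by
  obtain ⟨C, hC, h⟩ := exists_littlewood_mean
  have ho : ∀ᶠ T : ℝ in atTop, 3 * C * Real.log T ≤ 1 / 64 * T := by
    have := Real.isLittleO_log_id_atTop.def (show (0 : ℝ) < 1 / 64 / (3 * C + 1) by positivity)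
    filter_upwards [this, eventually_ge_atTop 2] with T hT hT2
    rw [Real.norm_eq_abs, id, Real.norm_eq_abs, abs_of_nonneg (show 0 ≤ T by linarith),
      abs_of_nonneg (Real.log_nonneg (by linarith)), div_mul_eq_mul_div,
      le_div_iff₀ (by positivity)] at hT
    nlinarith [Real.log_nonneg (show 1 ≤ T by linarith)]
  filter_upwards [eventually_mean_abs, ho, eventually_ge_atTop 2] with T hmean hlog hT
  have hI : |∫ t in T..2 * T, argTerm t| ≤ 1 / 32 * T := by
    have h1 := abs_le.1 (h T hT)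
    have h2 := abs_le.1 (h (2 * T) (by linarith))
    have h3 := intervalIntegral.integral_add_adjacent_intervals (intervalIntegrable_argTerm 0 T)
      (intervalIntegrable_argTerm T (2 * T))
    have h4 : Real.log (2 * T) ≤ 2 * Real.log T := by
      rw [Real.log_mul two_ne_zero (by linarith)]
      linarith [Real.log_le_log two_pos hT]
    have h5 := mul_le_mul_of_nonneg_left h4 hC
    rw [abs_le]
    constructor <;> linarith
  have key : ∀ ε : ℝ, (ε = 1 ∨ ε = -1) → ∃ t ∈ Icc T (2 * T), 1 / 80 < ε * argTerm t := by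
    intro ε hε
    by_contra hc
    simp only [not_exists, not_and, not_lt] at hc
    have hp : ∀ t ∈ Icc T (2 * T), |argTerm t| ≤ 1 / 40 - ε * argTerm t := fun t ht => by
      have := hc t ht
      rw [abs_le]
      rcases hε with rfl | rfl <;> constructor <;> linarith
    have h1 := intervalIntegral.integral_mono_on (by linarith)
      (intervalIntegrable_argTerm T (2 * T)).abs
      (intervalIntegrable_const.sub ((intervalIntegrable_argTerm T (2 * T)).const_mul ε)) hp
    rw [intervalIntegral.integral_sub intervalIntegrable_const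
      ((intervalIntegrable_argTerm T (2 * T)).const_mul ε), intervalIntegral.integral_const_mul,
      intervalIntegral.integral_const, smul_eq_mul] at h1
    have h2 := abs_le.1 hI
    rcases hε with rfl | rfl <;> linarith
  obtain ⟨t, ht, h1⟩ := key 1 (Or.inl rfl)
  obtain ⟨u, hu, h2⟩ := key (-1) (Or.inr rfl)
  exact ⟨⟨t, ht, by linarith⟩, u, hu, by linarith⟩

end FA.ArgumentMean

end
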