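import Fermat.Agent.RiemannMangoldt.Main
import Mathlib.Analysis.Real.Pi.Bounds

/-!
# Stirling's formula for `arg Γ`, with its constant

The series for `arg Γ (σ + it)` is a sum of `arctan (t / (σ + j))`; the midpoint rule for this
convex function costs only `O (1/t)`, so `arg Γ (σ + it) = t log t - t + (σ - 1/2) π/2 + O (1/t)`.
-/

set_option autoImplicit false

noncomputable section

namespace FA.ArgumentMean

open Complex Filter Topology Set
open FA.RiemannMangoldt (argPrimitive hasDerivAt_argPrimitive logGam gammaPartial im_gammaPartial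
  tendsto_gammaPartial tendsto_argPrimitive logGammaReal im_logGammaReal)
open scoped Real

/-- The derivative of `arctan (t / u)`. -/
def arcSlope (t u : ℝ) : ℝ := -t / (u ^ 2 + t ^ 2)

theorem hasDerivAt_arctan_div {t u : ℝ} (hu : 0 < u) :
    HasDerivAt (fun v : ℝ => Real.arctan (t / v)) (arcSlope t u) u := by
  refine ((Real.hasDerivAt_arctan _).comp u
    (((hasDerivAt_id' u).inv hu.ne').const_mul t)).congr_deriv ?_
  rw [arcSlope]
  simp only [Pi.inv_apply]
  field_simp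

theorem arcSlope_mono {t u v : ℝ} (ht : 0 < t) (hu : 0 ≤ u) (huv : u ≤ v) :
    arcSlope t u ≤ arcSlope t v := by
  rw [arcSlope, arcSlope, neg_div, neg_div, neg_le_neg_iff]
  refine div_le_div_of_nonneg_left ht.le (by positivity) ?_
  nlinarith

theorem arcSlope_mem {t u : ℝ} (ht : 0 < t) : -(1 / t) ≤ arcSlope t u ∧ arcSlope t u ≤ 0 := by
  rw [arcSlope, neg_div]
  refine ⟨neg_le_neg ?_, neg_nonpos.2 (by positivity)⟩
  rw [div_le_div_iff₀ (by positivity) ht]
  nlinarith [sq_nonneg u]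

theorem arctan_slope {t a b : ℝ} (ht : 0 < t) (ha : 0 < a) (hab : a ≤ b) :
    (b - a) * arcSlope t a ≤ Real.arctan (t / b) - Real.arctan (t / a) ∧
      Real.arctan (t / b) - Real.arctan (t / a) ≤ (b - a) * arcSlope t b := by
  rcases hab.eq_or_lt with rfl | h
  · simp
  obtain ⟨c, hc, hce⟩ := exists_hasDerivAt_eq_slope (fun v : ℝ => Real.arctan (t / v))
    (arcSlope t) h
    (fun v hv => (hasDerivAt_arctan_div (by linarith [hv.1])).continuousAt.continuousWithinAt)
    fun v hv => hasDerivAt_arctan_div (by linarith [hv.1])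
  rw [eq_div_iff (by linarith)] at hce
  rw [← hce, mul_comm (arcSlope t c)]
  exact ⟨mul_le_mul_of_nonneg_left (arcSlope_mono ht ha.le hc.1.le) (by linarith),
    mul_le_mul_of_nonneg_left (arcSlope_mono ht (by linarith [hc.1]) hc.2.le) (by linarith)⟩

/-- **The midpoint rule on one interval.** -/
theorem midpoint_le {t c : ℝ} (ht : 0 < t) (hc : 1 / 2 < c) :
    |argPrimitive t (c + 1 / 2) - argPrimitive t (c - 1 / 2) - Real.arctan (t / c)| ≤
      (arcSlope t (c + 1 / 2) - arcSlope t (c - 1 / 2)) / 4 := by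
  obtain ⟨F, hF⟩ : ∃ F : ℝ → ℝ, F = fun x : ℝ =>
      argPrimitive t (c + x) - argPrimitive t (c - x) - 2 * x * Real.arctan (t / c) := ⟨_, rfl⟩
  have hd : ∀ x ∈ Icc (0 : ℝ) (1 / 2), HasDerivWithinAt F (Real.arctan (t / (c + x)) +
      Real.arctan (t / (c - x)) - 2 * Real.arctan (t / c)) (Icc 0 (1 / 2)) x := fun x hx => by
    rw [hF]
    refine ((((hasDerivAt_argPrimitive (by linarith [hx.1])).comp_const_add c x).sub
      ((hasDerivAt_argPrimitive (by linarith [hx.2])).comp_const_sub c x)).sub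
      (((hasDerivAt_id' x).const_mul 2).mul_const _)).congr_deriv ?_ |>.hasDerivWithinAt
    ring
  obtain ⟨D, hD⟩ : ∃ D, D = arcSlope t (c + 1 / 2) - arcSlope t (c - 1 / 2) := ⟨_, rfl⟩
  have hb : ∀ x ∈ Icc (0 : ℝ) (1 / 2), ‖Real.arctan (t / (c + x)) +
      Real.arctan (t / (c - x)) - 2 * Real.arctan (t / c)‖ ≤ D / 2 := fun x hx => by
    obtain ⟨p1, p2⟩ := arctan_slope ht (show 0 < c by linarith) (show c ≤ c + x by linarith [hx.1])
    obtain ⟨q1, q2⟩ := arctan_slope ht (show 0 < c - x by linarith [hx.2])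
      (show c - x ≤ c by linarith [hx.1])
    have m1 := arcSlope_mono ht (show 0 ≤ c + x by linarith [hx.1])
      (show c + x ≤ c + 1 / 2 by linarith [hx.2])
    have m2 := arcSlope_mono ht (show 0 ≤ c - 1 / 2 by linarith)
      (show c - 1 / 2 ≤ c - x by linarith [hx.2])
    rw [add_sub_cancel_left] at p1 p2
    rw [sub_sub_cancel] at q1 q2
    have n1 := mul_le_mul_of_nonneg_left m1 hx.1
    have n2 := mul_le_mul_of_nonneg_left m2 hx.1
    have hD0 : 0 ≤ D := by
      rw [hD]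
      linarith [arcSlope_mono ht (show 0 ≤ c - 1 / 2 by linarith)
        (show c - 1 / 2 ≤ c + 1 / 2 by linarith)]
    have hx2 := mul_le_mul_of_nonneg_right hx.2 hD0
    rw [hD] at hx2 hD0 ⊢
    rw [Real.norm_eq_abs, abs_le]
    constructor <;> nlinarith
  have h := (convex_Icc (0 : ℝ) (1 / 2)).norm_image_sub_le_of_norm_hasDerivWithin_le hd hb
    (left_mem_Icc.2 (by norm_num)) (right_mem_Icc.2 (by norm_num))
  simp only [hF, Real.norm_eq_abs, sub_zero, add_zero, mul_zero, zero_mul, sub_self] at h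
  rw [show (2 : ℝ) * (1 / 2) = 1 by norm_num, one_mul, abs_of_nonneg (by norm_num : (0:ℝ) ≤ 1 / 2)]
    at h
  rw [← hD]
  linarith

theorem sum_midpoint {σ t : ℝ} (hσ : 0 < σ) (ht : 0 < t) (n : ℕ) :
    |argPrimitive t (σ + 1 / 2 + n) - argPrimitive t (σ + 1 / 2) -
        ∑ j ∈ Finset.range n, Real.arctan (t / (σ + (j + 1 : ℕ)))| ≤
      (arcSlope t (σ + 1 / 2 + n) - arcSlope t (σ + 1 / 2)) / 4 := by
  induction n with
  | zero => simp
  | succ n ih =>
    have hn : (0 : ℝ) ≤ n := Nat.cast_nonneg n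
    have h := midpoint_le ht (show 1 / 2 < σ + (n + 1 : ℕ) by push_cast; linarith)
    rw [Finset.sum_range_succ]
    rw [show σ + ((n + 1 : ℕ) : ℝ) + 1 / 2 = σ + 1 / 2 + ((n + 1 : ℕ) : ℝ) by ring,
      show σ + ((n + 1 : ℕ) : ℝ) - 1 / 2 = σ + 1 / 2 + n by push_cast; ring] at h
    rw [abs_le] at ih h ⊢
    constructor <;> linarith

/-- **`arg Γ` by the midpoint rule.** -/
theorem abs_im_logGam_midpoint {σ t : ℝ} (hσ : 0 < σ) (ht : 0 < t) :
    |(logGam ((σ : ℂ) + t * I)).im - (argPrimitive t (σ + 1 / 2) - t - Real.arctan (t / σ))| ≤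
      1 / (4 * t) := by
  have hre : ((σ : ℂ) + t * I).re = σ := by simp
  have him : ((σ : ℂ) + t * I).im = t := by simp
  have hlim := (Complex.continuous_im.tendsto _).comp
    (tendsto_gammaPartial (z := (σ : ℂ) + t * I) (by rw [hre]; exact hσ.le))
  obtain ⟨C, hC⟩ : ∃ C, C = argPrimitive t (σ + 1 / 2) - Real.arctan (t / σ) := ⟨_, rfl⟩
  have hA := (tendsto_argPrimitive (σ := σ + 1 / 2) (t := t)).add_const C
  have hb : ∀ n : ℕ, |(gammaPartial n ((σ : ℂ) + t * I)).im -
      (t * Real.log (n + 1) - argPrimitive t (σ + 1 / 2 + n) + C)| ≤ 1 / (4 * t) := fun n => by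
    rw [im_gammaPartial n (by rw [hre]; exact hσ), hre, him, Finset.sum_range_succ', hC]
    simp only [Nat.cast_zero, add_zero]
    have h := sum_midpoint hσ ht n
    have h1 := (arcSlope_mem (u := σ + 1 / 2 + n) ht).2
    have h2 := (arcSlope_mem (u := σ + 1 / 2) ht).1
    rw [show (1 : ℝ) / (4 * t) = 1 / t / 4 by field_simp]
    rw [abs_le] at h ⊢
    constructor <;> linarith
  have h := le_of_tendsto' (hlim.sub hA).abs hb
  rw [show (logGam ((σ : ℂ) + t * I)).im - (argPrimitive t (σ + 1 / 2) - t - Real.arctan (t / σ)) =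
    (logGam ((σ : ℂ) + t * I)).im - (-t + C) by rw [hC]; ring]
  exact h

/-- `arctan (t / u) = π / 2 - O (u / t)`. -/
theorem abs_arctan_div_sub_le {t u : ℝ} (ht : 0 < t) (hu : 0 < u) :
    |Real.arctan (t / u) - π / 2| ≤ u / t := by
  have h := Real.arctan_inv_of_pos (div_pos hu ht)
  rw [inv_div] at h
  rw [h, sub_sub_cancel_left, abs_neg, abs_of_nonneg (Real.arctan_nonneg.2 (by positivity))]
  conv_rhs => rw [← Real.tan_arctan (u / t)]
  exact Real.le_tan (Real.arctan_nonneg.2 (by positivity)) (Real.arctan_lt_pi_div_two _)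

/-- **Stirling.** -/
theorem abs_im_logGam_stirling {σ t : ℝ} (hσ : 0 < σ) (ht : 0 < t) :
    |(logGam ((σ : ℂ) + t * I)).im - (t * Real.log t - t + (σ - 1 / 2) * (π / 2))| ≤
      3 * (σ + 1) ^ 2 / t := by
  obtain ⟨u, hu⟩ : ∃ u, u = σ + 1 / 2 := ⟨_, rfl⟩
  have hu0 : 0 < u := by linarith
  have hm := abs_im_logGam_midpoint hσ ht
  rw [← hu] at hm
  have a1 := abs_arctan_div_sub_le ht hσ
  have a2 := abs_arctan_div_sub_le ht hu0
  have a3 : |u * (Real.arctan (t / u) - π / 2)| ≤ u * (u / t) := by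
    rw [abs_mul, abs_of_pos hu0]
    exact mul_le_mul_of_nonneg_left a2 hu0.le
  have hl : |t / 2 * Real.log (u ^ 2 + t ^ 2) - t * Real.log t| ≤ u ^ 2 / t := by
    have e : t / 2 * Real.log (u ^ 2 + t ^ 2) - t * Real.log t =
        t / 2 * Real.log ((u ^ 2 + t ^ 2) / t ^ 2) := by
      rw [Real.log_div (by positivity) (by positivity), Real.log_pow]
      push_cast
      ring
    have h1 : 1 ≤ (u ^ 2 + t ^ 2) / t ^ 2 := by
      rw [one_le_div (by positivity)]
      nlinarith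
    rw [e, abs_of_nonneg (mul_nonneg (by linarith) (Real.log_nonneg h1))]
    refine (mul_le_mul_of_nonneg_left (Real.log_le_sub_one_of_pos (by linarith))
      (show 0 ≤ t / 2 by linarith)).trans ?_
    rw [show t / 2 * ((u ^ 2 + t ^ 2) / t ^ 2 - 1) = u ^ 2 / t / 2 by field_simp; ring]
    have : 0 ≤ u ^ 2 / t := by positivity
    linarith
  have hH : argPrimitive t u = u * Real.arctan (t / u) + t / 2 * Real.log (u ^ 2 + t ^ 2) := rfl
  have hfin : 1 / (4 * t) + σ / t + u * (u / t) + u ^ 2 / t ≤ 3 * (σ + 1) ^ 2 / t := by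
    rw [show 1 / (4 * t) + σ / t + u * (u / t) + u ^ 2 / t = (1 / 4 + σ + 2 * u ^ 2) / t by
      field_simp; ring]
    refine div_le_div_of_nonneg_right ?_ ht.le
    rw [hu]
    nlinarith
  rw [hH] at hm
  rw [hu] at hm a3 hl hfin
  rw [abs_le] at hm a1 a3 hl ⊢
  constructor <;> linarith

/-- `θ (t)`, the argument of `Γℝ (1/2 + it)`. -/
def thetaFn (t : ℝ) : ℝ := (logGammaReal (((1 / 2 : ℝ) : ℂ) + t * I)).im

theorem abs_im_logGammaReal_sub_le {σ t : ℝ} (hσ : 0 < σ) (ht : 0 < t) :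
    |(logGammaReal ((σ : ℂ) + t * I)).im -
      (t / 2 * Real.log (t / (2 * π)) - t / 2 + (σ / 2 - 1 / 2) * (π / 2))| ≤
      6 * (σ / 2 + 1) ^ 2 / t := by
  have h := abs_im_logGam_stirling (show 0 < σ / 2 by linarith) (show 0 < t / 2 by linarith)
  rw [show ((σ / 2 : ℝ) : ℂ) + ((t / 2 : ℝ) : ℂ) * I = ((σ : ℂ) + t * I) / 2 by
    push_cast; ring] at h
  rw [im_logGammaReal, show ((σ : ℂ) + t * I).im = t by simp,
    Real.log_div ht.ne' (by positivity), Real.log_mul two_ne_zero Real.pi_ne_zero]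
  rw [Real.log_div ht.ne' two_ne_zero,
    show 3 * (σ / 2 + 1) ^ 2 / (t / 2) = 6 * (σ / 2 + 1) ^ 2 / t by field_simp; ring] at h
  rw [abs_le] at h ⊢
  constructor <;> linarith

/-- **`θ t = t/2 log (t/2π) - t/2 - π/8 + O (1/t)`.** -/
theorem abs_thetaFn_sub_le {t : ℝ} (ht : 0 < t) :
    |thetaFn t - (t / 2 * Real.log (t / (2 * π)) - t / 2 - π / 8)| ≤ 10 / t := by
  have h := abs_im_logGammaReal_sub_le (σ := 1 / 2) (by norm_num) ht
  rw [thetaFn]
  have h2 : 6 * ((1 / 2 : ℝ) / 2 + 1) ^ 2 / t ≤ 10 / t :=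
    div_le_div_of_nonneg_right (by norm_num) ht.le
  rw [abs_le] at h ⊢
  constructor <;> linarith

end FA.ArgumentMean

end
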